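import Fermat.Agent.GF.KCover.ASNode.KDChart
import Fermat.Agent.GF.KCover.Node.NodeRingK0Level
import Fermat.Agent.GF.KCover.AuxLevel.Descent
import Fermat.Agent.GK.UTr.KumAlphaGal
import Fermat.Agent.GJ.HN.Degree

/-!
# GATE-F / GF-ASFORM-KRULLUP (helper60): the Krull input, level-generic and iterable along `α`

The binder `hint` of `NodeK0Call.nl0_at_point` is needed at the auxiliary level `M·2·2`, while the
Artin–Schreier datum `g₁`, its chart and the nodal frame only exist at level `M`.  This file packs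
the input of the Krull step (`KrullMod.exists_monic_of_orbit`) into ONE level-generic predicate
which goes up along `alphaB M a`, so that nothing has to be re-proved at the auxiliary level.

* `KrullData A L h χ c₀ g₁` : `g₁ ∈ Rw₁ ∩ Rw₂`, fixed by `I_A ∩ ker χ`, and every pole `P` of `g₁`
  has a `j`-value `ι₀ c0`, `c0 ∈ R₀`, whose residue is NOT `c₀` (`c₀ : k_A` = the `j~`-value of the
  node, a level-independent element of the residue field);
* `KrullData.of_chart` : level `M`, from `g₁ ∈ L(Z)` with the support of `Z` made of `I_A`-fixed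
  places in the discs of non-cuspidal special points off the value `c₀` (KD);
* `KrullData.up` : `KrullData … g₁ → KrullData … (alphaB M a g₁)` (iterable);
* `KrullData.exists_monic_centreP` : at level `N' ℓ`, for a place `Pl` of `F̃_{N'ℓ}` with `j~(Pl) = c₀`:
  `g₁` is a root of a monic polynomial over `K₀(X₀(N'ℓ))` with coefficients in the local ring of
  the finite chart at `centreP (primeL Pl)` — the `𝔫` of `NodeK0Call.nl0_at_point`.
-/

set_option autoImplicit false
set_option linter.unusedSectionVars false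
set_option linter.style.haveILetI false

noncomputable section

namespace Fermat.Agent.GF.KCover.ASNode.KrullUp

open Polynomial AlgebraicCurve IsLocalRing ModularCurve IntermediateField
open Fermat.Agent.S24 Fermat.Agent.S24_helper62 Fermat.Agent.S24_helper6
open Fermat.Agent.GJ.J1 Fermat.Agent.GJ.J1.Val Fermat.Agent.GJ.KumGroup Fermat.Agent.GJ.HN
open Fermat.Agent.GJ.Kum.KumType
open Fermat.Agent.GK.AL Fermat.Agent.GK.QS Fermat.Agent.GK.NodalGraded Fermat.Agent.GK.NodalBridge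
open Fermat.Agent.GK.UTr
open Fermat.Agent.GL.Val.GaussK0 Fermat.Agent.GL.Val.SecondK0 Fermat.Agent.GL.Val.DegBase
open Fermat.Agent.RRh45
open Fermat.Agent.GL.BRingK0 Fermat.Agent.GL.Thick Fermat.Agent.GL.KrullHeightOne
open Fermat.Agent.Common_helper32
open Fermat.Agent.GB.A4.FrameTwo
open Fermat.Agent.GF.KCover.Node Fermat.Agent.GF.KCover.Node.NodeRingK0Level
open Fermat.Agent.GF.KCover.AuxLevel
open Fermat.Agent.GF.KCover.ASNode.KD Fermat.Agent.GF.KCover.ASNode.KDChart
open Fermat.Agent.GF.KCover.ASNode.KrullMod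

attribute [local instance] Fermat.Agent.GL.Frame.InstK0.algSubringFullC

/-! ### The package -/

/-- **the input of the Krull step at level `L`**, with the `j`-values of the poles kept off the
residue value `c₀`. -/
structure KrullData (A : ValuationSubring Qb) (L : ℕ) [NeZero L] {q : ℕ} (h : ExactDvd q L)
    {M : Type*} [Group M] (χ : (Qb ≃ₐ[ℚ] Qb) →* M) (c₀ : IsLocalRing.ResidueField A)
    (g1 : FK L) : Prop where
  fix : ∀ σ ∈ A.inertiaSubgroupIn ℚ, χ σ = 1 → galF L σ g1 = g1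
  mem1 : g1 ∈ (redDataBar L A).Rw
  mem2 : g1 ∈ (redData2 L A h).Rw
  pole : ∀ P : Place Kb (FK L), P.ord g1 < 0 →
    ∃ c0 : R0 A, ValueAt P (jF L) (ι0 A (c0 : K0 A)) ∧ resR0 A c0 ≠ c₀

/-! ### Going up along `α` -/

section Up

variable {M a : ℕ} [NeZero M] [NeZero a]

/-- the change of level `F_M → F_{M a}` is integral (finite). -/
theorem alphaB_integral : (alphaB M a).toRingHom.IsIntegral := by
  letI : Algebra (FK M) (FK (M * a)) := (alphaB M a).toRingHom.toAlgebra
  have h := finrank_adjoin_tower (alphaB M a) (jF M)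
  have e2 : Module.finrank Kbar⟮jF (M * a)⟯ (FN (M * a)) = dedekindPsi (M * a) :=
    (Fermat.Agent.S24_helper62.m9 (M * a)).2.2
  have hpos : 0 < dedekindPsi (M * a) := by
    have := Fermat.Agent.S24.Comb.card_I0 (M * a)
    rw [← this]
    exact Fintype.card_pos
  rw [alphaB_jF, e2] at h
  have hpos2 : 0 < Module.finrank (FK M) (FK (M * a)) := by
    rcases Nat.eq_zero_or_pos (Module.finrank (FK M) (FK (M * a))) with h0 | h0
    · rw [h0, mul_zero] at h
      omega
    · exact h0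
  haveI : FiniteDimensional (FK M) (FK (M * a)) := FiniteDimensional.of_finrank_pos hpos2
  intro y
  exact Algebra.IsIntegral.isIntegral (R := FK M) y

/-- the ramification index along `α` is positive. -/
theorem ramificationIndexAlong_alphaB_pos (P : Place Kb (FK (M * a))) :
    0 < Place.ramificationIndexAlong (alphaB M a) P := by
  letI := algebraAlong (alphaB M a)
  haveI := isScalarTower_along (alphaB M a)
  haveI := isIntegral_along (alphaB M a) (alphaB_integral (M := M) (a := a))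
  exact P.ramificationIndex_pos (F := FK M)

/-- **values go up along `α`**: `f(P ∩ F_M) = c ⟹ (α f)(P) = c`. -/
theorem valueAt_alphaB (P : Place Kb (FK (M * a))) {f : FK M} {c : Kb}
    (hv : ValueAt (P.restrictAlong (alphaB M a) alphaB_integral) f c) :
    ValueAt P (alphaB M a f) c := by
  unfold ValueAt at hv ⊢
  have e : alphaB M a f - algebraMap Kb (FK (M * a)) c =
      alphaB M a (f - algebraMap Kb (FK M) c) := by
    rw [map_sub, AlgHom.commutes]
  rw [e, mem_ordGE]
  rw [mem_ordGE] at hv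
  rcases hv with h0 | h1
  · left
    rw [h0, map_zero]
  · right
    rw [Place.ord_restrictAlong (alphaB M a) alphaB_integral P]
    have hpos := ramificationIndexAlong_alphaB_pos P
    have hpos' : (1 : ℤ) ≤ (Place.ramificationIndexAlong (alphaB M a) P : ℤ) := by
      exact_mod_cast hpos
    nlinarith

variable {A : ValuationSubring Qb} {q : ℕ} {h : ExactDvd q M} {h' : ExactDvd q (M * a)}
  {Mg : Type*} [Group Mg] {χ : (Qb ≃ₐ[ℚ] Qb) →* Mg} {c₀ : IsLocalRing.ResidueField A}

/-- **the Krull input goes up along `α`** (iterable: `M → M·2 → M·2·2`). -/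
theorem KrullData.up {g1 : FK M} (hK : KrullData A M h χ c₀ g1) :
    KrullData A (M * a) h' χ c₀ (alphaB M a g1) where
  fix σ hσ hχ := by
    have e := alphaB_arith M a σ g1
    have e' : galF (M * a) σ (alphaB M a g1) = alphaB M a (galF M σ g1) := e.symm
    rw [e', hK.fix σ hσ hχ]
  mem1 := (redUp_bar M a A).mem g1 hK.mem1
  mem2 := (redUp_two h h').mem g1 hK.mem2
  pole P hP := by
    rw [Place.ord_restrictAlong (alphaB M a) alphaB_integral P] at hP
    have hneg : (P.restrictAlong (alphaB M a) alphaB_integral).ord g1 < 0 := by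
      by_contra hge
      rw [not_lt] at hge
      have : (0 : ℤ) ≤ (Place.ramificationIndexAlong (alphaB M a) P : ℤ) *
          (P.restrictAlong (alphaB M a) alphaB_integral).ord g1 :=
        mul_nonneg (by positivity) hge
      omega
    obtain ⟨c0, hv, hne⟩ := hK.pole _ hneg
    refine ⟨c0, ?_, hne⟩
    have := valueAt_alphaB P hv
    rwa [alphaB_jF] at this

end Up

/-! ### The source: the chart at level `M` -/

section Chart

open Fermat.Agent.GK.CuspSep Fermat.Agent.GK.BallTwo Fermat.Agent.GK.SymChart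
open Fermat.Agent.GS.Nodal.LSR2 Fermat.Agent.GS.Nodal.Inst

attribute [local instance] finiteResidues_FN hasPrincipalDivisors_FN nonempty_place_FN
  isAlgClosed_res finiteResidues_Fres hasPrincipalDivisors_Fres nonempty_place_Fres

variable {A : ValuationSubring Qb} {M : ℕ} [NeZero M] {q : ℕ} [NeZero q] {h : ExactDvd q M}
variable {κ : Type} [Fintype κ]
  {P Q : κ → Place (IsLocalRing.ResidueField A) (FresBar M A)}
variable {g c : ℤ} {n₀ : ℕ}
variable {Mg : Type*} [Group Mg]

/-- the `j`-value of an `I_A`-fixed place with integral `j`-value is `ι₀` of an element of `R₀`,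
with the expected residue. -/
theorem exists_R0_of_valueAt (X : Place Kb (FK M))
    (hX : ∀ σ ∈ A.inertiaSubgroupIn ℚ,
      arithmeticGalois (L := Qb) (modularFunctionFieldFull M) σ • X = X)
    {a : Kbar} (ha : ValueAt X (jF M) a) (haA : a ∈ A) :
    ∃ c0 : R0 A, ι0 A (c0 : K0 A) = a ∧
      resR0 A c0 = IsLocalRing.residue A ⟨a, haA⟩ := by
  have hjC : mapK0Bar A M (jC M (K0 A)) = jF M := Fermat.Agent.GL.RatBRing.mapK0Bar_jC A M
  have ha' : ValueAt X (mapK0Bar A M (jC M (K0 A))) a := by rw [hjC]; exact ha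
  have hfix := valueAt_fixed M A X hX (jC M (K0 A)) ha'
  obtain ⟨c0, hc0⟩ := (mem_range_ι0_iff A a).2 hfix
  have hc0R : c0 ∈ R0 A := by
    rw [mem_R0_iff, hc0]
    exact haA
  refine ⟨⟨c0, hc0R⟩, hc0, ?_⟩
  rw [resR0_eq]
  congr 1
  exact Subtype.ext hc0

/-- **the Krull input from the chart** (level `M`): `g₁ ∈ Rw₁ ∩ Rw₂`, fixed by `I_A ∩ ker χ`,
`g₁ ∈ L(Z)`, and every point of the support of `Z` is an `I_A`-fixed place in the disc of a
non-cuspidal special point `Q'` with `τ(Q') ≠ c₀` (first component) resp. `τ(Q')^q ≠ c₀`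
(second component). -/
theorem KrullData.of_chart (hA : A.LiesOverPrime q)
    (H : NodalHyp (redCompatFN M A h) P Q (CS M h) (Dτ M A q) (Dτ M A q) g c n₀)
    (χ : (Qb ≃ₐ[ℚ] Qb) →* Mg) (c₀ : IsLocalRing.ResidueField A) (g1 : FK M)
    (hfix : ∀ σ ∈ A.inertiaSubgroupIn ℚ, χ σ = 1 → galF M σ g1 = g1)
    (hg1 : g1 ∈ (redDataBar M A).Rw) (hg2 : g1 ∈ (redData2 M A h).Rw)
    (Z : Divisor Kb (FK M)) (hZ : g1 ∈ riemannRochSpace Z)
    (hsupp : ∀ X : Place Kb (FK M), 0 < Z X →
      (∀ σ ∈ A.inertiaSubgroupIn ℚ,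
        arithmeticGalois (L := Qb) (modularFunctionFieldFull M) σ • X = X) ∧
      ((∃ Q' : Place (IsLocalRing.ResidueField A) (FresBar M A), X ∈ disc1 H Q' ∧
          0 ≤ Q'.ord (tauF M A) ∧ ¬ ValueAt Q' (tauF M A) c₀) ∨
        (∃ Q' : Place (IsLocalRing.ResidueField A) (FresBar M A), X ∈ disc2 H Q' ∧
          0 ≤ Q'.ord (tauF M A) ∧ ¬ ValueAt Q' (tauF M A ^ q) c₀))) :
    KrullData A M h χ c₀ g1 where
  fix := hfix
  mem1 := hg1
  mem2 := hg2
  pole X hX := by
    haveI : Infinite (IsLocalRing.ResidueField A) := IsAlgClosed.instInfinite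
    have hZX : 0 < Z X := by
      rcases mem_riemannRochSpace_iff.1 hZ X with h0 | hle
      · rw [h0] at hX
        simp at hX
      · omega
    obtain ⟨hfixX, hdisc⟩ := hsupp X hZX
    rcases hdisc with ⟨Q', hd, hQ', hQ'c⟩ | ⟨Q', hd, hQ', hQ'c⟩
    · have hXj : 0 ≤ X.ord (jF M) := by
        by_contra hneg
        have := ord_tau_neg_of_mem_disc1 M A h H (not_le.1 hneg) hd
        omega
      obtain ⟨a, ha1, ha2⟩ := valueAt_jF_of_mem_disc1 M A h H hA hd hXj hQ'
      obtain ⟨c0, hc0, hres⟩ := exists_R0_of_valueAt X hfixX ha1 a.2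
      refine ⟨c0, by rw [hc0]; exact ha1, fun he => hQ'c ?_⟩
      rw [← he, hres]
      exact ha2
    · have hXj : 0 ≤ X.ord (jF M) := by
        by_contra hneg
        have := ord_tau_neg_of_mem_disc2 M A h H (not_le.1 hneg) hd
        omega
      obtain ⟨a, ha1, ha2⟩ := valueAt_jF_of_mem_disc2 M A h H hA hd hXj hQ'
      have haA : (a : Kbar) ∈ A := a.2
      obtain ⟨c0, hc0, hres⟩ := exists_R0_of_valueAt X hfixX ha1 haA
      refine ⟨c0, by rw [hc0]; exact ha1, fun he => hQ'c ?_⟩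
      rw [← he, hres]
      exact ha2

end Chart

/-! ### The target: the Krull step at the prime-form centre of `NodeK0Call.nl0_at_point` -/

section Target

variable {A : ValuationSubring Qb} {N' : ℕ} [NeZero N'] {ℓ : ℕ} [Fact ℓ.Prime] [NeZero ℓ]
  (h : ExactDvd ℓ (N' * ℓ)) (hℓN : ¬ ℓ ∣ N') (hA : A.LiesOverPrime ℓ)
variable {Mg : Type*} [Group Mg] [Finite Mg]

local notation "F0" => modularFunctionFieldFullC (K0 A) (N' * ℓ)

/-- `j - a` is not zero in `F_N` -/
theorem jF_sub_const_ne_zero' (a : Kbar) :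
    jF (N' * ℓ) - algebraMap Kbar (FN (N' * ℓ)) a ≠ 0 := fun h0 =>
  (isGen_jF (N' * ℓ)).transcendental (sub_eq_zero.mp h0 ▸ isAlgebraic_algebraMap a)

include hA in
/-- **the Krull step on the finite chart, any prime `𝔫`** (fraction-free form): the poles of `g₁`
have `j`-values `ι₀ c0` with `j - c0 ∉ 𝔫`. -/
theorem KrullData.exists_monic_BRingK0 {χ : (Qb ≃ₐ[ℚ] Qb) →* Mg}
    {c₀ : IsLocalRing.ResidueField A} {g1 : FK (N' * ℓ)}
    (hK : KrullData A (N' * ℓ) h χ c₀ g1)
    (𝔫 : Ideal (BRingK0 N' ℓ A h)) [𝔫.IsPrime]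
    (hsep : ∀ c0 : R0 A, resR0 A c0 ≠ c₀ → jK0B N' ℓ A h - cstK0 N' ℓ A h c0 ∉ 𝔫) :
    ∃ f : F0[X], f.Monic ∧
      (∀ k, ∃ s a : BRingK0 N' ℓ A h, s ∉ 𝔫 ∧ (a : F0) = (s : F0) * f.coeff k) ∧
      Polynomial.eval₂ (mapK0Bar A (N' * ℓ)) g1 f = 0 := by
  have hF := frame_BRingK0 h hA
  obtain ⟨-, -, i3, -⟩ := id hF
  have := i3
  have hpole : ∀ P : Place Kb (FK (N' * ℓ)), P.ord g1 < 0 →
      ∃ b : BRingK0 N' ℓ A h, b ∉ 𝔫 ∧ 0 < P.ord (mapK0Bar A (N' * ℓ) (b : F0)) := by
    intro P hP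
    obtain ⟨c0, hv, hne⟩ := hK.pole P hP
    refine ⟨jK0B N' ℓ A h - cstK0 N' ℓ A h c0, hsep c0 hne, ?_⟩
    have hjC : mapK0Bar A (N' * ℓ) (jC (N' * ℓ) (K0 A)) = jF (N' * ℓ) :=
      Fermat.Agent.GL.RatBRing.mapK0Bar_jC A (N' * ℓ)
    have e : mapK0Bar A (N' * ℓ) ((jK0B N' ℓ A h - cstK0 N' ℓ A h c0 :
        BRingK0 N' ℓ A h) : F0) =
        jF (N' * ℓ) - algebraMap Kbar (FN (N' * ℓ)) (ι0 A (c0 : K0 A)) := by
      have e1 : ((jK0B N' ℓ A h - cstK0 N' ℓ A h c0 : BRingK0 N' ℓ A h) : F0) =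
          jC (N' * ℓ) (K0 A) - algebraMap (K0 A) F0 (c0 : K0 A) := rfl
      rw [e1, map_sub, hjC, mapK0Bar_algebraMap]
    rw [e]
    unfold ValueAt at hv
    rw [mem_ordGE] at hv
    rcases hv with h0 | h1
    · exact absurd h0 (jF_sub_const_ne_zero' _)
    · exact lt_of_lt_of_le zero_lt_one h1
  obtain ⟨f, hm, hc, he⟩ := exists_monic_of_orbit hA hF
    (fun c hc => algebraMap_mem_BRingK0 N' ℓ A h ⟨c, hc⟩) 𝔫 g1
    (finite_orbit_of_fixed A (N' * ℓ) χ g1 hK.fix) hK.mem1 hK.mem2 hpole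
  refine ⟨f, hm, fun k => ?_, he⟩
  obtain ⟨s, hs, a, ha⟩ := (mem_locSub_iff 𝔫).1 (hc k)
  refine ⟨s, a, hs, ?_⟩
  have e : algebraMap (BRingK0 N' ℓ A h) F0 a = (a : F0) := rfl
  rw [← e, ha, Algebra.smul_def]
  rfl

variable [IsDedekindDomain (CRing N' A)] [IsFractionRing (CRing N' A) (FresBar N' A)]

/-- membership of `j - c0` in the prime-form centre, read at the place `Pl`. -/
theorem jK0B_sub_mem_centreP_iff (Pl : Place (IsLocalRing.ResidueField A) (FresBar (N' * ℓ) A))
    (hPl : ContainsC hℓN hA Pl) (c0 : R0 A) :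
    jK0B N' ℓ A h - cstK0 N' ℓ A h c0 ∈ centreP h hℓN hA (primeL hℓN hA Pl hPl) ↔
      fresInclInv hℓN hA (Fermat.Agent.GK.QS.jt N' A) -
        algebraMap (IsLocalRing.ResidueField A) (FresBar (N' * ℓ) A) (resR0 A c0) ∈
          Pl.toValuationSubring.nonunits := by
  unfold centreP
  rw [Ideal.mem_comap, map_sub, redC1K0_jK0B, redC1K0_cstK0, mem_primeL_iff, map_sub, map_sub]
  have e1 : algebraMap (CRing N' A) (FresBar N' A) (jtC N' A) = Fermat.Agent.GK.QS.jt N' A := rfl
  have e2 : algebraMap (CRing N' A) (FresBar N' A)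
      (algebraMap (IsLocalRing.ResidueField A) (CRing N' A) (resR0 A c0)) =
      algebraMap (IsLocalRing.ResidueField A) (FresBar N' A) (resR0 A c0) :=
    (IsScalarTower.algebraMap_apply (IsLocalRing.ResidueField A) (CRing N' A) (FresBar N' A)
      (resR0 A c0)).symm
  rw [e1, e2, AlgHom.commutes]

include hA in
/-- **the Krull step at the point of `NodeK0Call.nl0_at_point`** (fraction-free form): `Pl` a place
of `F̃_{N'ℓ}` at which `j~` is regular with value `c₀`. -/
theorem KrullData.exists_monic_centreP' {χ : (Qb ≃ₐ[ℚ] Qb) →* Mg}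
    {c₀ : IsLocalRing.ResidueField A} {g1 : FK (N' * ℓ)}
    (hK : KrullData A (N' * ℓ) h χ c₀ g1)
    (Pl : Place (IsLocalRing.ResidueField A) (FresBar (N' * ℓ) A)) (hPl : ContainsC hℓN hA Pl)
    (hc₀ : ValueAt Pl (fresInclInv hℓN hA (Fermat.Agent.GK.QS.jt N' A)) c₀) :
    ∃ f : F0[X], f.Monic ∧
      (∀ k, ∃ s a : BRingK0 N' ℓ A h, s ∉ centreP h hℓN hA (primeL hℓN hA Pl hPl) ∧
        (a : F0) = (s : F0) * f.coeff k) ∧
      Polynomial.eval₂ (mapK0Bar A (N' * ℓ)) g1 f = 0 := by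
  refine hK.exists_monic_BRingK0 h hA (centreP h hℓN hA (primeL hℓN hA Pl hPl))
    fun c0 hne hmem => hne ?_
  rw [jK0B_sub_mem_centreP_iff] at hmem
  have hv : ValueAt Pl (fresInclInv hℓN hA (Fermat.Agent.GK.QS.jt N' A)) (resR0 A c0) := by
    unfold ValueAt
    rw [mem_ordGE]
    by_cases h0 : fresInclInv hℓN hA (Fermat.Agent.GK.QS.jt N' A) -
        algebraMap (IsLocalRing.ResidueField A) (FresBar (N' * ℓ) A) (resR0 A c0) = 0
    · exact Or.inl h0
    · right
      have := (Fermat.Agent.GJ.FF.ord_pos_iff_mem_nonunits Pl h0).2 hmem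
      omega
  exact ValueAt.unique hv hc₀

include hA in
/-- **the Krull step at the point of `NodeK0Call.nl0_at_point`**, `locSub` form. -/
theorem KrullData.exists_monic_centreP
    [IsFractionRing (BRingK0 N' ℓ A h) F0] {χ : (Qb ≃ₐ[ℚ] Qb) →* Mg}
    {c₀ : IsLocalRing.ResidueField A} {g1 : FK (N' * ℓ)}
    (hK : KrullData A (N' * ℓ) h χ c₀ g1)
    (Pl : Place (IsLocalRing.ResidueField A) (FresBar (N' * ℓ) A)) (hPl : ContainsC hℓN hA Pl)
    (hc₀ : ValueAt Pl (fresInclInv hℓN hA (Fermat.Agent.GK.QS.jt N' A)) c₀) :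
    ∃ f : F0[X], f.Monic ∧
      (∀ k, f.coeff k ∈ locSub F0 (centreP h hℓN hA (primeL hℓN hA Pl hPl))) ∧
      Polynomial.eval₂ (mapK0Bar A (N' * ℓ)) g1 f = 0 := by
  obtain ⟨f, hm, hc, he⟩ := hK.exists_monic_centreP' h hℓN hA Pl hPl hc₀
  refine ⟨f, hm, fun k => ?_, he⟩
  obtain ⟨s, a, hs, ha⟩ := hc k
  rw [mem_locSub_iff]
  refine ⟨s, hs, a, ?_⟩
  rw [Algebra.smul_def]
  exact ha

end Target

end Fermat.Agent.GF.KCover.ASNode.KrullUp
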