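import Mathlib
import Fermat.Agent.GL.Alg.KrullHeightOne

/-!
# GATE-F / GF-ASFORM (R3-abs) (helper60): the Krull step, abstract form

`B` a noetherian integrally closed domain, `F0 = Frac B`, `𝔫` a prime of `B`.

* `mem_locSub_of_forall_heightOne_le` : `B_𝔫 = ⋂ B_𝔭` over the height-one primes `𝔭 ≤ 𝔫`
  (Krull's theorem for the local ring `B_𝔫`, fraction-free inside `F0`).
* `coeff_prod_X_sub_C_mem` : the coefficients of `∏ (X - C (y i))` lie in every subring
  containing the `y i` (any finite index type `κ`, e.g. `Fin m` or a Galois orbit).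
* `coeff_mem_locSub_of_conjugates` : if `f : F0[X]` splits over an extension `ι : F0 →+* L` as
  `∏ (X - C (y i))` and for every height-one prime `𝔭 ≤ 𝔫` there is a valuation subring `V` of `L`
  containing all `y i` with `ι ⁻¹ V ⊆ B_𝔭`, then all coefficients of `f` lie in `B_𝔫`.
* `exists_monic_of_conjugates` : consumer form: a monic `f : F0[X]` with coefficients in `B_𝔫`
  killing every `y i` (so `y i` is integral over `B_𝔫`).
-/

set_option autoImplicit false
set_option linter.unusedSectionVars false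

namespace Fermat.Agent.GF.KCover.ASNode.KrullAbs

open Polynomial Fermat.Agent.GL.KrullHeightOne

section Local

variable {B F0 : Type*} [CommRing B] [IsDomain B] [IsNoetherianRing B] [IsIntegrallyClosed B]
  [Field F0] [Algebra B F0] [IsFractionRing B F0]

/-- **Krull for the local ring `B_𝔫`**: an element of `F0` lying in `B_𝔭` for every height-one
prime `𝔭 ≤ 𝔫` lies in `B_𝔫`. -/
theorem mem_locSub_of_forall_heightOne_le (𝔫 : Ideal B) [𝔫.IsPrime] (c : F0)
    (h : ∀ (𝔭 : Ideal B) (_ : 𝔭.IsPrime), 𝔭.height = 1 → 𝔭 ≤ 𝔫 → c ∈ locSub F0 𝔭) :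
    c ∈ locSub F0 𝔫 := by
  have hN : IsNoetherianRing (locSub F0 𝔫) :=
    IsLocalization.isNoetherianRing 𝔫.primeCompl (locSub F0 𝔫) inferInstance
  have hI : IsIntegrallyClosed (locSub F0 𝔫) :=
    isIntegrallyClosed_of_isLocalization (locSub F0 𝔫) 𝔫.primeCompl
      (primeCompl_le_nonZeroDivisors 𝔫)
  have hc : c ∈ (algebraMap (locSub F0 𝔫) F0).range := by
    refine mem_range_of_forall_heightOne (B := locSub F0 𝔫) c fun 𝔓 hP h1 => ?_
    have hpp : (𝔓.under B).IsPrime := Ideal.IsPrime.under B 𝔓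
    have hh : (𝔓.under B).height = 1 := by
      rw [IsLocalization.height_under 𝔫.primeCompl 𝔓]
      exact h1
    have hle : 𝔓.under B ≤ 𝔫 := by
      intro s hs
      by_contra hsn
      have hu : IsUnit (algebraMap B (locSub F0 𝔫) s) :=
        IsLocalization.map_units (locSub F0 𝔫) (⟨s, hsn⟩ : 𝔫.primeCompl)
      exact hP.ne_top (Ideal.eq_top_of_isUnit_mem _ (Ideal.mem_comap.1 hs) hu)
    obtain ⟨s, hs, a, ha⟩ := (mem_locSub_iff (𝔓.under B)).1 (h _ hpp hh hle)
    refine ⟨algebraMap B (locSub F0 𝔫) s, fun hmem => hs (Ideal.mem_comap.2 hmem),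
      algebraMap B (locSub F0 𝔫) a, ?_⟩
    rw [← IsScalarTower.algebraMap_apply B (locSub F0 𝔫) F0, ha, Algebra.smul_def,
      Algebra.smul_def, ← IsScalarTower.algebraMap_apply B (locSub F0 𝔫) F0]
  obtain ⟨b, rfl⟩ := hc
  exact b.2

end Local

section Coeff

variable {L : Type*} [CommRing L]

/-- the coefficients of `∏ (X - C (y i))` lie in any subring containing the `y i` -/
theorem coeff_prod_X_sub_C_mem (S : Subring L) {κ : Type*} [Fintype κ] (y : κ → L)
    (hy : ∀ i, y i ∈ S)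
    (k : ℕ) : (∏ i, (X - C (y i)) : L[X]).coeff k ∈ S := by
  have hmem : (∏ i, (X - C (y i)) : L[X]) ∈ Polynomial.lifts S.subtype := by
    rw [Polynomial.lifts_iff_liftsRing]
    refine prod_mem fun i _ => ?_
    refine sub_mem ?_ ?_
    · rw [← Polynomial.lifts_iff_liftsRing]
      exact Polynomial.X_mem_lifts _
    · rw [← Polynomial.lifts_iff_liftsRing]
      exact Polynomial.C'_mem_lifts ⟨⟨y i, hy i⟩, rfl⟩
  have := (Polynomial.lifts_iff_coeff_lifts _).1 hmem k
  obtain ⟨a, ha⟩ := this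
  rw [← ha]
  exact a.2

end Coeff

section Main

variable {B F0 : Type*} [CommRing B] [IsDomain B] [IsNoetherianRing B] [IsIntegrallyClosed B]
  [Field F0] [Algebra B F0] [IsFractionRing B F0]
  {L : Type*} [Field L]

/-- **(R3-abs)**: `f : F0[X]` splits over `ι : F0 →+* L` with roots `y i`; for every height-one
prime `𝔭 ≤ 𝔫` some valuation subring `V` of `L` contains all `y i` and satisfies
`ι ⁻¹ V ⊆ B_𝔭`. Then every coefficient of `f` lies in `B_𝔫`. -/
theorem coeff_mem_locSub_of_conjugates (𝔫 : Ideal B) [𝔫.IsPrime] (ι : F0 →+* L) {κ : Type*}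
    [Fintype κ] (y : κ → L) (f : F0[X]) (hf : f.map ι = ∏ i, (X - C (y i)))
    (hV : ∀ (𝔭 : Ideal B) (_ : 𝔭.IsPrime), 𝔭.height = 1 → 𝔭 ≤ 𝔫 →
      ∃ V : ValuationSubring L, (∀ c : F0, ι c ∈ V → c ∈ locSub F0 𝔭) ∧ ∀ i, y i ∈ V)
    (k : ℕ) : f.coeff k ∈ locSub F0 𝔫 := by
  refine mem_locSub_of_forall_heightOne_le 𝔫 _ fun 𝔭 hp h1 hle => ?_
  obtain ⟨V, hV1, hV2⟩ := hV 𝔭 hp h1 hle
  apply hV1
  have h := coeff_prod_X_sub_C_mem V.toSubring y hV2 k
  rw [← hf, Polynomial.coeff_map] at h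
  exact h

/-- **(R3-abs), consumer form**: under the hypotheses of `coeff_mem_locSub_of_conjugates` the
polynomial `f` is monic with coefficients in `B_𝔫` and kills every `y i`: the `y i` are integral
over `B_𝔫`. -/
theorem exists_monic_of_conjugates (𝔫 : Ideal B) [𝔫.IsPrime] (ι : F0 →+* L) {κ : Type*}
    [Fintype κ] (y : κ → L) (f : F0[X]) (hf : f.map ι = ∏ i, (X - C (y i)))
    (hV : ∀ (𝔭 : Ideal B) (_ : 𝔭.IsPrime), 𝔭.height = 1 → 𝔭 ≤ 𝔫 →
      ∃ V : ValuationSubring L, (∀ c : F0, ι c ∈ V → c ∈ locSub F0 𝔭) ∧ ∀ i, y i ∈ V) :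
    f.Monic ∧ (∀ k, f.coeff k ∈ locSub F0 𝔫) ∧ ∀ i, Polynomial.eval₂ ι (y i) f = 0 := by
  refine ⟨?_, coeff_mem_locSub_of_conjugates 𝔫 ι y f hf hV, fun i => ?_⟩
  · have hm : (f.map ι).Monic := by
      rw [hf]
      exact Polynomial.monic_prod_of_monic _ _ fun i _ => Polynomial.monic_X_sub_C (y i)
    exact Polynomial.monic_of_injective ι.injective hm
  · rw [← Polynomial.eval_map, hf, Polynomial.eval_prod]
    exact Finset.prod_eq_zero (Finset.mem_univ i) (by simp)

end Main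

end Fermat.Agent.GF.KCover.ASNode.KrullAbs
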