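import Fermat.Agent.GB.A.A4.FrameTwo
import Fermat.Agent.GL.Frame.HorizHord
import Fermat.Agent.GL.Red.RatLiftK0
import Fermat.Agent.GK.AL.GalValInst
import Fermat.Agent.GJ.J1.PlaceLattice
import Fermat.Agent.GF.KCover.ASNode.KrullAbs

/-!
# GATE-F / GF-ASFORM (R3-mod) (helper60): the Krull step on a `K₀` chart ring

`N = N' q`, `q ∥ N`, `A | q`, `F₀ = K₀(X₀(N))`, `Bj ⊂ F₀` a chart ring carrying the two-component
frame (`FrameTwo.IsFrameTwo`: `BRingK0`, `BRingK0Inv`), `𝔫` a prime of `Bj`.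

* `coeff_mem_of_frameTwo` : `f : F₀[X]` splitting over `F_N = ℚ̄(X₀(N))` with roots `y i`, all
  `y i ∈ Rw₁ ∩ Rw₂` (vertical primes) and no pole of `y i` specialising into `𝔫` (horizontal primes)
  ⟹ the coefficients of `f` lie in `Bj_𝔫` (fraction-free form; `_locSub` form below).
* `exists_poly_of_stable` : an `I_A`-stable finite set of `F_N` is the root set of a polynomial over
  `F₀`.
* `exists_monic_of_orbit` : `g₁ ∈ Rw₁ ∩ Rw₂` with finite `I_A`-orbit whose poles do not specialise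
  into `𝔫` is a root of a monic polynomial over `F₀` with coefficients in `Bj_𝔫`.
-/

set_option autoImplicit false
set_option linter.unusedSectionVars false

noncomputable section

namespace Fermat.Agent.GF.KCover.ASNode.KrullMod

open Polynomial ModularCurve IsLocalRing AlgebraicCurve
open Fermat.Agent.S24 Fermat.Agent.S24_helper62
open Fermat.Agent.GJ.J1 Fermat.Agent.GJ.J1.Val
open Fermat.Agent.GJ.KumGroup
open Fermat.Agent.GL.KrullHeightOne Fermat.Agent.GL.Frame.HeightOne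
open Fermat.Agent.GL.Val.GaussK0 Fermat.Agent.GL.Val.SecondK0 Fermat.Agent.GL.Val.L1eLower
open Fermat.Agent.GL.Local.InertiaField
open Fermat.Agent.GL.Frame.HorizDiv Fermat.Agent.GL.Frame.HorizHord
open Fermat.Agent.GK.AL Fermat.Agent.GL.AL
open Fermat.Agent.Common_helper32
open Fermat.Agent.GB.A4.FrameTwo
open Fermat.Agent.GF.KCover.ASNode.KrullAbs

attribute [local instance] Fermat.Agent.GL.Frame.InstK0.algSubringFullC

section Core

variable (A : ValuationSubring Qb) (N : ℕ) [NeZero N] {q : ℕ} (h : ExactDvd q N)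
  (hA : A.LiesOverPrime q)

local notation "F0" => modularFunctionFieldFullC (K0 A) N

variable {A N h}

include hA in
/-- **(R3-mod), core**: the hypotheses of `KrullAbs.coeff_mem_locSub_of_conjugates` on a chart
ring with the two-component frame.  Vertical primes: the roots lie in both Gauss valuation rings;
horizontal primes: no pole of a root specialises into `𝔫`. -/
theorem coeff_mem_locSub_of_frameTwo {Bj : Subring F0} [IsFractionRing Bj F0]
    (hF : IsFrameTwo A N h Bj)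
    (hR0 : ∀ c : K0 A, c ∈ R0 A → algebraMap (K0 A) F0 c ∈ Bj)
    (𝔫 : Ideal Bj) [𝔫.IsPrime] {κ : Type*} [Fintype κ] (y : κ → FK N) (f : F0[X])
    (hf : f.map (mapK0Bar A N) = ∏ i, (X - C (y i)))
    (hy1 : ∀ i, y i ∈ (redDataBar N A).Rw) (hy2 : ∀ i, y i ∈ (redData2 N A h).Rw)
    (hpole : ∀ i (P : Place Kb (FK N)), P.ord (y i) < 0 →
      ∃ b : Bj, b ∉ 𝔫 ∧ 0 < P.ord (mapK0Bar A N (b : F0)))
    (k : ℕ) : f.coeff k ∈ locSub F0 𝔫 := by
  obtain ⟨i1, i2, i3, fv, hf1, hf2, hf3⟩ := hF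
  have hq : q.Prime := h.prime
  have hAq : (q : Qb) ∈ A.nonunits := hA
  -- `q ∈ Bj`
  have hqR : ((q0 A q : R0 A) : K0 A) ∈ R0 A := (q0 A q).2
  have hqB : (q : F0) ∈ Bj := by
    have := hR0 _ hqR
    rwa [Fermat.Agent.GL.Final.H5UnifK0.algebraMap_q0] at this
  refine coeff_mem_locSub_of_conjugates 𝔫 (mapK0Bar A N) y f hf (fun 𝔭 hp h1 hle => ?_) k
  let 𝔭' : HtOne Bj := ⟨𝔭, hp, h1⟩
  have hloc : ∀ c : F0, c ∈ V1 F0 𝔭' → c ∈ locSub F0 𝔭 := fun c hc => hc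
  by_cases hq𝔭 : (⟨(q : F0), hqB⟩ : Bj) ∈ 𝔭
  · -- vertical
    obtain ⟨i, hi⟩ := hf3 𝔭' ⟨(q : F0), hqB⟩ rfl hq𝔭
    have hV : V1 F0 𝔭' = W2 A N h i := by rw [← hi]; exact hf1 i
    fin_cases i
    · refine ⟨(redDataBar N A).Rw, fun c hc => hloc c ?_, hy1⟩
      rw [hV]
      exact (mem_Rw1K0_iff A N c).2 hc
    · refine ⟨(redData2 N A h).Rw, fun c hc => hloc c ?_, hy2⟩
      rw [hV]
      exact (mem_Rw2K0_iff A N h c).2 hc
  · -- horizontal
    have hK0 : ∀ c : K0 A, algebraMap (K0 A) F0 c ∈ V1 F0 𝔭' := by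
      refine algebraMap_K0_mem_of_baseRing A hq hAq (algebraMap (K0 A) F0) (V1 F0 𝔭') ?_ ?_
      · intro c hc
        exact algebraMap_mem_V1 𝔭' ⟨_, hR0 c hc⟩
      · have h1 := inv_algebraMap_mem_V1 (F := F0) 𝔭' hq𝔭
        have e : algebraMap Bj F0 (⟨(q : F0), hqB⟩ : Bj) = (q : F0) := rfl
        rw [e] at h1
        exact h1
    have hdvr := isDiscreteValuationRing_V1 (F := F0) 𝔭'
    obtain ⟨t, ht⟩ := IsDiscreteValuationRing.exists_irreducible ↥(V1 F0 𝔭')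
    obtain ⟨P, hVP, -, -⟩ := exists_place_over A N (V1 F0 𝔭') hK0 t ht.ne_zero
      ((IsDiscreteValuationRing.irreducible_iff_uniformizer t).mp ht)
    refine ⟨P.toValuationSubring, fun c hc => hloc c ((hVP c).1 hc), fun i => ?_⟩
    by_contra hyi
    have hneg : P.ord (y i) < 0 := by
      by_contra hge
      exact hyi ((Fermat.Agent.GJ.J1.PlaceLattice.ord_nonneg_iff_mem P (y i)).1 (not_lt.1 hge))
    obtain ⟨b, hb𝔫, hbpos⟩ := hpole i P hneg
    apply hb𝔫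
    apply hle
    have hb0 : mapK0Bar A N (b : F0) ≠ 0 := by
      rintro h0
      rw [h0] at hbpos
      simp at hbpos
    have hnon : mapK0Bar A N (b : F0) ∈ P.toValuationSubring.nonunits :=
      (Fermat.Agent.GJ.FF.ord_pos_iff_mem_nonunits P hb0).1 hbpos
    have hnon' : (b : F0) ∈ (V1 F0 𝔭').nonunits :=
      (mem_nonunits_of_comap (mapK0Bar A N) (V1 F0 𝔭') P.toValuationSubring
        (fun c => (hVP c).symm) (b : F0)).2 hnon
    exact (algebraMap_mem_nonunits_V1_iff (F := F0) 𝔭' b).1 hnon'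

end Core

/-! ### Galois descent of the orbit polynomial -/

section Galois

variable (A : ValuationSubring Qb) (N : ℕ) [NeZero N]

local notation "F0" => modularFunctionFieldFullC (K0 A) N

theorem galF_mul_apply (σ τ : Qb ≃ₐ[ℚ] Qb) (x : FN N) :
    galF N (σ * τ) x = galF N σ (galF N τ x) := by
  have h1 := map_mul (arithmeticGalois (L := Qb) (modularFunctionFieldFull N)) σ τ
  have h2 := congrArg SemilinearAut.toRingAut h1
  rw [SemilinearAut.toRingAut_mul, toRingAut_arithmeticGalois, toRingAut_arithmeticGalois,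
    toRingAut_arithmeticGalois] at h2
  exact DFunLike.congr_fun h2 x

theorem galF_one_apply (x : FN N) : galF N (1 : Qb ≃ₐ[ℚ] Qb) x = x := by
  have h1 := map_one (arithmeticGalois (L := Qb) (modularFunctionFieldFull N))
  have h2 := congrArg SemilinearAut.toRingAut h1
  rw [SemilinearAut.toRingAut_one, toRingAut_arithmeticGalois] at h2
  exact DFunLike.congr_fun h2 x

/-- **an `I_A`-stable finite subset of `F_N` is the root set of a polynomial over `K₀(X₀(N))`** -/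
theorem exists_poly_of_stable (S : Finset (FN N))
    (hS : ∀ σ ∈ A.inertiaSubgroupIn ℚ, ∀ x ∈ S, galF N σ x ∈ S) :
    ∃ f : F0[X], f.map (mapK0Bar A N) = ∏ x ∈ S, (X - C x) := by
  classical
  set P : (FN N)[X] := ∏ x ∈ S, (X - C x) with hP
  have hfix : ∀ σ ∈ A.inertiaSubgroupIn ℚ, P.map (galF N σ : FN N →+* FN N) = P := by
    intro σ hσ
    have himg : S.image (galF N σ) = S := by
      refine Finset.eq_of_subset_of_card_le ?_ ?_
      · intro x hx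
        obtain ⟨x', hx', rfl⟩ := Finset.mem_image.1 hx
        exact hS σ hσ x' hx'
      · rw [Finset.card_image_of_injective _ (galF N σ).injective]
    rw [hP, Polynomial.map_prod]
    conv_rhs => rw [← himg]
    rw [Finset.prod_image fun a _ b _ hab => (galF N σ).injective hab]
    refine Finset.prod_congr rfl fun x _ => ?_
    rw [Polynomial.map_sub, Polynomial.map_X, Polynomial.map_C]
    rfl
  have hmem : P ∈ Polynomial.lifts (mapK0Bar A N) := by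
    rw [Polynomial.lifts_iff_coeff_lifts]
    intro k
    obtain ⟨c, hc⟩ := Fermat.Agent.GL.RatLiftK0.exists_mapK0Bar_of_fixed A N (P.coeff k)
      fun σ hσ => by
        have := congrArg (fun Q : (FN N)[X] => Q.coeff k) (hfix σ hσ)
        simpa [Polynomial.coeff_map] using this
    exact ⟨c, hc⟩
  exact (Polynomial.mem_lifts P).1 hmem

/-- the orbit of an element fixed by the kernel of a character with finite image is finite -/
theorem finite_orbit_of_fixed {M : Type*} [Group M] [Finite M] (χ : (Qb ≃ₐ[ℚ] Qb) →* M)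
    (g1 : FN N)
    (hfix : ∀ σ ∈ A.inertiaSubgroupIn ℚ, χ σ = 1 → galF N σ g1 = g1) :
    {x : FN N | ∃ σ ∈ A.inertiaSubgroupIn ℚ, galF N σ g1 = x}.Finite := by
  classical
  let φ : M → FN N := fun m =>
    if hm : ∃ σ ∈ A.inertiaSubgroupIn ℚ, χ σ = m then galF N hm.choose g1 else g1
  refine (Set.finite_range φ).subset ?_
  rintro x ⟨σ, hσ, rfl⟩
  refine ⟨χ σ, ?_⟩
  have hm : ∃ τ ∈ A.inertiaSubgroupIn ℚ, χ τ = χ σ := ⟨σ, hσ, rfl⟩
  show (if hm : ∃ τ ∈ A.inertiaSubgroupIn ℚ, χ τ = χ σ then galF N hm.choose g1 else g1) = _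
  rw [dif_pos hm]
  obtain ⟨hτ, hχ⟩ := hm.choose_spec
  set τ := hm.choose
  have h1 : τ⁻¹ * σ ∈ A.inertiaSubgroupIn ℚ := mul_mem (inv_mem hτ) hσ
  have h2 : χ (τ⁻¹ * σ) = 1 := by rw [map_mul, map_inv, hχ, inv_mul_cancel]
  have h3 := hfix _ h1 h2
  have h4 : galF N σ g1 = galF N τ (galF N (τ⁻¹ * σ) g1) := by
    rw [← galF_mul_apply, mul_inv_cancel_left]
  rw [h4, h3]

/-- `ord_P (σ x) = ord_{σ⁻¹ P} x` for the coefficientwise Galois action -/
theorem ord_galF (σ : Qb ≃ₐ[ℚ] Qb) (P : Place Kb (FK N)) (x : FK N) :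
    P.ord (galF N σ x) =
      ((arithmeticGalois (L := Qb) (modularFunctionFieldFull N) σ)⁻¹ • P).ord x := by
  have h := SemilinearAut.ord_smul (arithmeticGalois (L := Qb) (modularFunctionFieldFull N) σ)
    ((arithmeticGalois (L := Qb) (modularFunctionFieldFull N) σ)⁻¹ • P) x
  rw [smul_inv_smul] at h
  exact h

end Galois

/-! ### The modular Krull step -/

section Final

variable {A : ValuationSubring Qb} {N : ℕ} [NeZero N] {q : ℕ} {h : ExactDvd q N}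
  (hA : A.LiesOverPrime q)

local notation "F0" => modularFunctionFieldFullC (K0 A) N

include hA in
/-- **(R3-mod), orbit form**: `g₁ ∈ Rw₁ ∩ Rw₂` with finite `I_A`-orbit, no pole of `g₁` specialising
into `𝔫`.  Then `g₁` is a root of a monic polynomial over `K₀(X₀(N))` with coefficients in `Bj_𝔫`
(the orbit polynomial). -/
theorem exists_monic_of_orbit {Bj : Subring F0} [IsFractionRing Bj F0]
    (hF : IsFrameTwo A N h Bj)
    (hR0 : ∀ c : K0 A, c ∈ R0 A → algebraMap (K0 A) F0 c ∈ Bj)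
    (𝔫 : Ideal Bj) [𝔫.IsPrime] (g1 : FK N)
    (hfin : {x : FN N | ∃ σ ∈ A.inertiaSubgroupIn ℚ, galF N σ g1 = x}.Finite)
    (hg1 : g1 ∈ (redDataBar N A).Rw) (hg2 : g1 ∈ (redData2 N A h).Rw)
    (hpole : ∀ P : Place Kb (FK N), P.ord g1 < 0 →
      ∃ b : Bj, b ∉ 𝔫 ∧ 0 < P.ord (mapK0Bar A N (b : F0))) :
    ∃ f : F0[X], f.Monic ∧ (∀ k, f.coeff k ∈ locSub F0 𝔫) ∧
      Polynomial.eval₂ (mapK0Bar A N) g1 f = 0 := by
  classical
  set S : Finset (FN N) := hfin.toFinset with hSdef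
  have hmemS : ∀ x, x ∈ S ↔ ∃ σ ∈ A.inertiaSubgroupIn ℚ, galF N σ g1 = x := fun x => by
    rw [hSdef, Set.Finite.mem_toFinset]
    rfl
  have hstab : ∀ σ ∈ A.inertiaSubgroupIn ℚ, ∀ x ∈ S, galF N σ x ∈ S := by
    intro σ hσ x hx
    obtain ⟨τ, hτ, rfl⟩ := (hmemS x).1 hx
    exact (hmemS _).2 ⟨σ * τ, mul_mem hσ hτ, galF_mul_apply N σ τ g1⟩
  have hgS : g1 ∈ S := (hmemS g1).2 ⟨1, one_mem _, galF_one_apply N g1⟩
  obtain ⟨f, hf⟩ := exists_poly_of_stable A N S hstab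
  have hf' : f.map (mapK0Bar A N) = ∏ i : ↥S, (X - C (i : FN N)) := by
    rw [hf]
    exact (Finset.prod_coe_sort S fun x => (X - C x : (FN N)[X])).symm
  refine ⟨f, ?_, ?_, ?_⟩
  · have hm : (f.map (mapK0Bar A N)).Monic := by
      rw [hf]
      exact Polynomial.monic_prod_of_monic _ _ fun x _ => Polynomial.monic_X_sub_C x
    exact Polynomial.monic_of_injective (mapK0Bar A N).injective hm
  · refine coeff_mem_locSub_of_frameTwo hA hF hR0 𝔫 (fun i : ↥S => (i : FN N)) f hf' ?_ ?_ ?_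
    · rintro ⟨x, hx⟩
      obtain ⟨τ, hτ, rfl⟩ := (hmemS x).1 hx
      exact galF_mem_Rw1
        (Fermat.Agent.S05.mem_decompositionSubgroup_of_mem_inertiaSubgroupIn hτ) hg1
    · rintro ⟨x, hx⟩
      obtain ⟨τ, hτ, rfl⟩ := (hmemS x).1 hx
      exact galF_mem_Rw2
        (Fermat.Agent.S05.mem_decompositionSubgroup_of_mem_inertiaSubgroupIn hτ) hg2
    · rintro ⟨x, hx⟩ P hP
      obtain ⟨τ, hτ, rfl⟩ := (hmemS x).1 hx
      have hP' : P.ord (galF N τ g1) < 0 := hP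
      rw [ord_galF] at hP'
      obtain ⟨b, hb, hbpos⟩ := hpole _ hP'
      refine ⟨b, hb, ?_⟩
      rw [← ord_galF, Fermat.Agent.GL.RatLiftK0.galF_mapK0Bar A N τ hτ] at hbpos
      exact hbpos
  · rw [← Polynomial.eval_map, hf, Polynomial.eval_prod]
    exact Finset.prod_eq_zero hgS (by simp)

include hA in
/-- **(R3-mod), consumer form**: `g₁ ∈ Rw₁ ∩ Rw₂` fixed by `I_A ∩ ker χ` (`χ` a character with
finite image, e.g. the mod `p` cyclotomic character), `g₁ ∈ L(Z)` and no point of `Z`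
specialises into `𝔫` (**(KD)**: for every `P` in the support of `Z` some `b ∈ Bj ∖ 𝔫` vanishes
at `P`).  Then `g₁` is integral over `Bj_𝔫 = locSub F0 𝔫`. -/
theorem exists_monic_of_fixed {Bj : Subring F0} [IsFractionRing Bj F0]
    (hF : IsFrameTwo A N h Bj)
    (hR0 : ∀ c : K0 A, c ∈ R0 A → algebraMap (K0 A) F0 c ∈ Bj)
    (𝔫 : Ideal Bj) [𝔫.IsPrime] (g1 : FK N)
    {M : Type*} [Group M] [Finite M] (χ : (Qb ≃ₐ[ℚ] Qb) →* M)
    (hfix : ∀ σ ∈ A.inertiaSubgroupIn ℚ, χ σ = 1 → galF N σ g1 = g1)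
    (hg1 : g1 ∈ (redDataBar N A).Rw) (hg2 : g1 ∈ (redData2 N A h).Rw)
    (Z : Divisor Kb (FK N)) (hZ : g1 ∈ riemannRochSpace Z)
    (hKD : ∀ P : Place Kb (FK N), 0 < Z P →
      ∃ b : Bj, b ∉ 𝔫 ∧ 0 < P.ord (mapK0Bar A N (b : F0))) :
    ∃ f : F0[X], f.Monic ∧ (∀ k, f.coeff k ∈ locSub F0 𝔫) ∧
      Polynomial.eval₂ (mapK0Bar A N) g1 f = 0 := by
  refine exists_monic_of_orbit hA hF hR0 𝔫 g1 (finite_orbit_of_fixed A N χ g1 hfix) hg1 hg2 ?_
  intro P hP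
  refine hKD P ?_
  rcases mem_riemannRochSpace_iff.1 hZ P with h0 | hle
  · rw [h0] at hP
    simp at hP
  · omega

include hA in
/-- **(R3-mod), fraction-free (instance-free) form** of `exists_monic_of_fixed`: every coefficient
`c` of `f` satisfies `s * c ∈ Bj` for some `s ∈ Bj ∖ 𝔫`. -/
theorem exists_monic_of_fixed' {Bj : Subring F0} (hF : IsFrameTwo A N h Bj)
    (hR0 : ∀ c : K0 A, c ∈ R0 A → algebraMap (K0 A) F0 c ∈ Bj)
    (𝔫 : Ideal Bj) [𝔫.IsPrime] (g1 : FK N)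
    {M : Type*} [Group M] [Finite M] (χ : (Qb ≃ₐ[ℚ] Qb) →* M)
    (hfix : ∀ σ ∈ A.inertiaSubgroupIn ℚ, χ σ = 1 → galF N σ g1 = g1)
    (hg1 : g1 ∈ (redDataBar N A).Rw) (hg2 : g1 ∈ (redData2 N A h).Rw)
    (Z : Divisor Kb (FK N)) (hZ : g1 ∈ riemannRochSpace Z)
    (hKD : ∀ P : Place Kb (FK N), 0 < Z P →
      ∃ b : Bj, b ∉ 𝔫 ∧ 0 < P.ord (mapK0Bar A N (b : F0))) :
    ∃ f : F0[X], f.Monic ∧ (∀ k, ∃ s a : Bj, s ∉ 𝔫 ∧ (a : F0) = (s : F0) * f.coeff k) ∧
      Polynomial.eval₂ (mapK0Bar A N) g1 f = 0 := by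
  obtain ⟨-, -, i3, -⟩ := id hF
  have := i3
  obtain ⟨f, hm, hc, he⟩ := exists_monic_of_fixed hA hF hR0 𝔫 g1 χ hfix hg1 hg2 Z hZ hKD
  refine ⟨f, hm, fun k => ?_, he⟩
  obtain ⟨s, hs, a, ha⟩ := (mem_locSub_iff 𝔫).1 (hc k)
  refine ⟨s, a, hs, ?_⟩
  have e : algebraMap Bj F0 a = (a : F0) := rfl
  rw [← e, ha, Algebra.smul_def]
  rfl

end Final

/-! ### The two chart rings -/

section Charts

open Fermat.Agent.GL.BRingK0 Fermat.Agent.GL.Red.BRingK0Inv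

variable {A : ValuationSubring Qb} {N' : ℕ} [NeZero N'] {ℓ : ℕ} [Fact ℓ.Prime] [NeZero ℓ]
  (h : ExactDvd ℓ (N' * ℓ)) (hA : A.LiesOverPrime ℓ)

local notation "F0" => modularFunctionFieldFullC (K0 A) (N' * ℓ)

include hA in
/-- **(R3-mod) on the finite chart `BRingK0 N' ℓ A h`** (fraction-free form) -/
theorem exists_monic_BRingK0 (𝔫 : Ideal (BRingK0 N' ℓ A h)) [𝔫.IsPrime] (g1 : FK (N' * ℓ))
    {M : Type*} [Group M] [Finite M] (χ : (Qb ≃ₐ[ℚ] Qb) →* M)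
    (hfix : ∀ σ ∈ A.inertiaSubgroupIn ℚ, χ σ = 1 → galF (N' * ℓ) σ g1 = g1)
    (hg1 : g1 ∈ (redDataBar (N' * ℓ) A).Rw) (hg2 : g1 ∈ (redData2 (N' * ℓ) A h).Rw)
    (Z : Divisor Kb (FK (N' * ℓ))) (hZ : g1 ∈ riemannRochSpace Z)
    (hKD : ∀ P : Place Kb (FK (N' * ℓ)), 0 < Z P →
      ∃ b : BRingK0 N' ℓ A h, b ∉ 𝔫 ∧ 0 < P.ord (mapK0Bar A (N' * ℓ) (b : F0))) :
    ∃ f : F0[X], f.Monic ∧
      (∀ k, ∃ s a : BRingK0 N' ℓ A h, s ∉ 𝔫 ∧ (a : F0) = (s : F0) * f.coeff k) ∧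
      Polynomial.eval₂ (mapK0Bar A (N' * ℓ)) g1 f = 0 :=
  exists_monic_of_fixed' hA (frame_BRingK0 h hA)
    (fun c hc => algebraMap_mem_BRingK0 N' ℓ A h ⟨c, hc⟩) 𝔫 g1 χ hfix hg1 hg2 Z hZ hKD

include hA in
/-- **(R3-mod) on the chart at infinity `BRingK0Inv N' ℓ A h`** (fraction-free form) -/
theorem exists_monic_BRingK0Inv (𝔫 : Ideal (BRingK0Inv N' ℓ A h)) [𝔫.IsPrime]
    (g1 : FK (N' * ℓ))
    {M : Type*} [Group M] [Finite M] (χ : (Qb ≃ₐ[ℚ] Qb) →* M)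
    (hfix : ∀ σ ∈ A.inertiaSubgroupIn ℚ, χ σ = 1 → galF (N' * ℓ) σ g1 = g1)
    (hg1 : g1 ∈ (redDataBar (N' * ℓ) A).Rw) (hg2 : g1 ∈ (redData2 (N' * ℓ) A h).Rw)
    (Z : Divisor Kb (FK (N' * ℓ))) (hZ : g1 ∈ riemannRochSpace Z)
    (hKD : ∀ P : Place Kb (FK (N' * ℓ)), 0 < Z P →
      ∃ b : BRingK0Inv N' ℓ A h, b ∉ 𝔫 ∧ 0 < P.ord (mapK0Bar A (N' * ℓ) (b : F0))) :
    ∃ f : F0[X], f.Monic ∧
      (∀ k, ∃ s a : BRingK0Inv N' ℓ A h, s ∉ 𝔫 ∧ (a : F0) = (s : F0) * f.coeff k) ∧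
      Polynomial.eval₂ (mapK0Bar A (N' * ℓ)) g1 f = 0 :=
  exists_monic_of_fixed' hA (frame_BRingK0Inv h hA)
    (fun c hc => algebraMap_mem_BRingK0Inv N' ℓ A h ⟨c, hc⟩) 𝔫 g1 χ hfix hg1 hg2 Z hZ hKD

end Charts

end Fermat.Agent.GF.KCover.ASNode.KrullMod
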