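/-
GATE-F / GF-ASFORM step (d) (helper60, second seat under helper40; board 6222 §2 (d)): **the local
glueing step of the Artin–Schreier normal form**, on helper16's nodal frame (`LSR2.NodalHyp`).

`R1 R2` the two Gauss valuations, `P j`, `Q j` the two branches of the node `j`, `GoodPlace H v` =
"`v` reduces to a smooth point".  For `x ∈ Rw₁ ∩ Rw₂` whose poles are good places:

* `glued_value` (N) : `red₁ x (P j) = red₂ x (Q j)` — the on-main form of "`f ∈ O_s ⟹` the two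
  reductions of `f` agree at `s`" (`L5.redSpace2_le_glued_push`);
* `const_red_eq` : if both reductions are CONSTANT they are the same constant;
* `const_congr` (d) : if `g = A₁ (1 + π y₁) = A₂ (1 + π y₂)` with `A_i` unit constants,
  `y_i ∈ Rw_i`, poles of `g` good, then `A₁ ≡ A₂ mod π` (`v(A₁ - A₂) ≤ v(π)`); no discreteness of
  the value group (divide by `A₁ - A₂`);
* `g1_mem_Rw2` (d′) : then `g = A₁ (1 + π y)` with ONE `y ∈ Rw₁ ∩ Rw₂`;
* `glued_value_g1` : and `red₁ y (P j) = red₂ y (Q j)` at every node (the usable form of (R3)).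
-/
import Fermat.Agent.GS.Nodal.L5Mult
import Fermat.Agent.GH.Disc.Values

set_option autoImplicit false
set_option linter.unusedSectionVars false

noncomputable section

open AlgebraicCurve

namespace Fermat.Agent.GF.KCover.ASNode

open Fermat.Agent.RRh45 Fermat.Agent.GJ.J1 Fermat.Agent.GK.MultiVal
open Fermat.Agent.GK.NodalGraded
open Fermat.Agent.GS.Nodal.LSR2 Fermat.Agent.GS.Nodal.L5

variable {K F k Ft1 Ft2 : Type*} [Field K] [Field F] [Algebra K F] [Field k]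
  [Field Ft1] [Algebra k Ft1] [Field Ft2] [Algebra k Ft2]
variable {R1 : RedData K F k Ft1} {R2 : RedData K F k Ft2} {hc : RedCompat R1 R2}
variable {ι : Type*} {P : ι → Place k Ft1} {Q : ι → Place k Ft2}
variable {C : Divisor K F} {C₁ : Divisor k Ft1} {C₂ : Divisor k Ft2} {g₀ c₀ : ℤ} {n₀ : ℕ}
variable [FiniteResidues K F] [HasPrincipalDivisors K F] [Nonempty (Place K F)]
variable [FiniteResidues k Ft1] [HasPrincipalDivisors k Ft1] [Nonempty (Place k Ft1)]
variable [FiniteResidues k Ft2] [HasPrincipalDivisors k Ft2] [Nonempty (Place k Ft2)]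
variable [Infinite k] [Finite ι]

/-! ### generalities on one reduction datum -/

section One

variable {Ft : Type*} [Field Ft] [Algebra k Ft] (R : RedData K F k Ft)

/-- a constant of valuation `< 1` times an integral element reduces to `0` -/
theorem red_const_mul_eq_zero {a : K} (ha : R.A.valuation a < 1) {y : F} (hy : y ∈ R.Rw) :
    ∃ h : algebraMap K F a * y ∈ R.Rw, R.red ⟨algebraMap K F a * y, h⟩ = 0 := by
  have haA : a ∈ R.A := (R.A.valuation_le_one_iff a).1 ha.le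
  have haW : algebraMap K F a ∈ R.Rw := (R.mem_A_iff a).1 haA
  refine ⟨R.Rw.mul_mem _ _ haW hy, ?_⟩
  have e : (⟨algebraMap K F a * y, R.Rw.mul_mem _ _ haW hy⟩ : R.Rw) =
      ⟨algebraMap K F a, haW⟩ * ⟨y, hy⟩ := rfl
  rw [e, map_mul, R.red_algebraMap ⟨a, haA⟩,
    (Fermat.Agent.GH.Disc.res_eq_zero_iff (R := R) ⟨a, haA⟩).2 ha, map_zero, zero_mul]

/-- the value of a constant -/
theorem valueAt_algebraMap' {L E : Type*} [Field L] [Field E] [Algebra L E] (v : Place L E)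
    (a : L) : ValueAt v (algebraMap L E a) a := by
  unfold ValueAt
  rw [sub_self]
  exact Submodule.zero_mem _

end One

/-! ### the node fact -/

/-- **(N) the node fact**: for `x ∈ Rw₁ ∩ Rw₂` with poles at good places, the two reductions have
the same value at the two branches of every node. -/
theorem glued_value (H : NodalHyp hc P Q C C₁ C₂ g₀ c₀ n₀) {Z : Divisor K F} (hZ : 0 ≤ Z)
    (hgood : ∀ v ∈ Z.support, GoodPlace H v) {x : F} (h1 : x ∈ R1.Rw) (h2 : x ∈ R2.Rw)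
    (hx : x ∈ riemannRochSpace Z) (j : ι) :
    ∃ c : k, ValueAt (P j) (R1.red ⟨x, h1⟩) c ∧ ValueAt (Q j) (R2.red ⟨x, h2⟩) c :=
  (mem_glued.1 (mem_glued_of_mem_L H hZ hgood h1 h2 hx)).2.2 j

/-- two CONSTANT reductions of an element with good poles agree -/
theorem const_red_eq [Nonempty ι] (H : NodalHyp hc P Q C C₁ C₂ g₀ c₀ n₀) {Z : Divisor K F}
    (hZ : 0 ≤ Z) (hgood : ∀ v ∈ Z.support, GoodPlace H v) {x : F} (h1 : x ∈ R1.Rw)
    (h2 : x ∈ R2.Rw) (hx : x ∈ riemannRochSpace Z) {c₁ c₂ : k}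
    (hr1 : R1.red ⟨x, h1⟩ = algebraMap k Ft1 c₁) (hr2 : R2.red ⟨x, h2⟩ = algebraMap k Ft2 c₂) :
    c₁ = c₂ := by
  obtain ⟨j⟩ := ‹Nonempty ι›
  obtain ⟨c, hc1, hc2⟩ := glued_value H hZ hgood h1 h2 hx j
  rw [hr1] at hc1
  rw [hr2] at hc2
  have e1 : c₁ = c := ValueAt.unique (valueAt_algebraMap' (P j) c₁) hc1
  have e2 : c₂ = c := ValueAt.unique (valueAt_algebraMap' (Q j) c₂) hc2
  rw [e1, e2]

/-! ### step (d) -/

/-- **(d) the constants of the two Artin–Schreier normal forms are congruent modulo `π`.** -/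
theorem const_congr [Nonempty ι] (H : NodalHyp hc P Q C C₁ C₂ g₀ c₀ n₀) {Z : Divisor K F}
    (hZ : 0 ≤ Z) (hgood : ∀ v ∈ Z.support, GoodPlace H v) {g : F}
    (hg : g ∈ riemannRochSpace Z) {π A₁ A₂ : K} (hA₁ : R1.A.valuation A₁ = 1)
    (hA₂ : R1.A.valuation A₂ = 1) {y₁ y₂ : F} (hy₁ : y₁ ∈ R1.Rw) (hy₂ : y₂ ∈ R2.Rw)
    (e₁ : g = algebraMap K F A₁ * (1 + algebraMap K F π * y₁))
    (e₂ : g = algebraMap K F A₂ * (1 + algebraMap K F π * y₂)) :
    R1.A.valuation (A₁ - A₂) ≤ R1.A.valuation π := by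
  by_contra hlt
  rw [not_le] at hlt
  set d : K := A₁ - A₂ with hd
  have hd0 : d ≠ 0 := by
    intro h0
    rw [h0, map_zero] at hlt
    exact not_lt_zero hlt
  have hvd : R1.A.valuation d ≠ 0 := (Valuation.ne_zero_iff _).2 hd0
  -- the two small constants
  have ha1 : R1.A.valuation (A₁ * π / d) < 1 := by
    rw [map_div₀, map_mul, hA₁, one_mul]
    exact (div_lt_one₀ (zero_lt_iff.2 hvd)).2 hlt
  have ha2 : R1.A.valuation (A₂ * π / d) < 1 := by
    rw [map_div₀, map_mul, hA₂, one_mul]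
    exact (div_lt_one₀ (zero_lt_iff.2 hvd)).2 hlt
  have ha2' : R2.A.valuation (A₂ * π / d) < 1 := by rw [← hc.A_eq]; exact ha2
  have hdF : algebraMap K F d ≠ 0 := (map_ne_zero_iff _ (algebraMap K F).injective).2 hd0
  -- the test function
  set f : F := (g - algebraMap K F A₁) / algebraMap K F d with hf
  have hf1 : f = algebraMap K F (A₁ * π / d) * y₁ := by
    rw [hf, e₁, map_div₀, map_mul]
    field_simp
    ring
  have hf2 : f = algebraMap K F (-1) + algebraMap K F (A₂ * π / d) * y₂ := by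
    have hdd : algebraMap K F d = algebraMap K F A₁ - algebraMap K F A₂ := by rw [hd, map_sub]
    rw [hf, e₂, map_div₀, map_mul, map_neg, map_one]
    field_simp
    rw [hdd]
    ring
  obtain ⟨m1, hm1⟩ := red_const_mul_eq_zero R1 ha1 hy₁
  obtain ⟨m2, hm2⟩ := red_const_mul_eq_zero R2 ha2' hy₂
  have hone2 : algebraMap K F (-1) ∈ R2.Rw :=
    (R2.mem_A_iff (-1)).1 (neg_mem (one_mem _))
  have hfW1 : f ∈ R1.Rw := hf1 ▸ m1
  have hfW2 : f ∈ R2.Rw := hf2 ▸ R2.Rw.add_mem _ _ hone2 m2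
  have hr1 : R1.red ⟨f, hfW1⟩ = algebraMap k Ft1 0 := by
    rw [map_zero, ← hm1]
    congr 1
    exact Subtype.ext hf1
  have hr2 : R2.red ⟨f, hfW2⟩ = algebraMap k Ft2 (-1) := by
    have e : (⟨f, hfW2⟩ : R2.Rw) = ⟨algebraMap K F (-1), hone2⟩ +
        ⟨algebraMap K F (A₂ * π / d) * y₂, m2⟩ := Subtype.ext hf2
    rw [e, map_add, hm2, add_zero, R2.red_algebraMap ⟨(-1 : K), neg_mem (one_mem _)⟩]
    congr 1
    have : (⟨(-1 : K), neg_mem (one_mem _)⟩ : R2.A) = -1 := rfl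
    rw [this, map_neg, map_one]
  -- `f ∈ L(Z)`
  have hfL : f ∈ riemannRochSpace Z := by
    have h1 : g - algebraMap K F A₁ ∈ riemannRochSpace Z :=
      Submodule.sub_mem _ hg (const_mem_L hZ A₁)
    have h2 := (riemannRochSpace Z).smul_mem d⁻¹ h1
    rw [Algebra.smul_def, map_inv₀] at h2
    rw [hf, div_eq_inv_mul]
    exact h2
  have := const_red_eq H hZ hgood hfW1 hfW2 hfL hr1 hr2
  exact one_ne_zero (neg_eq_zero.1 this.symm)

/-- **(d′) one common `g1`**: `g = A₁ (1 + π y)` with `y ∈ Rw₁ ∩ Rw₂`. -/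
theorem g1_mem_Rw2 [Nonempty ι] (H : NodalHyp hc P Q C C₁ C₂ g₀ c₀ n₀) {Z : Divisor K F}
    (hZ : 0 ≤ Z) (hgood : ∀ v ∈ Z.support, GoodPlace H v) {g : F}
    (hg : g ∈ riemannRochSpace Z) {π A₁ A₂ : K} (hπ : π ≠ 0) (hA₁ : R1.A.valuation A₁ = 1)
    (hA₂ : R1.A.valuation A₂ = 1) {y₁ y₂ : F} (hy₁ : y₁ ∈ R1.Rw) (hy₂ : y₂ ∈ R2.Rw)
    (e₁ : g = algebraMap K F A₁ * (1 + algebraMap K F π * y₁))
    (e₂ : g = algebraMap K F A₂ * (1 + algebraMap K F π * y₂)) :
    y₁ ∈ R2.Rw := by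
  have hcg := const_congr H hZ hgood hg hA₁ hA₂ hy₁ hy₂ e₁ e₂
  have hA₁0 : A₁ ≠ 0 := fun h0 => by rw [h0, map_zero] at hA₁; exact zero_ne_one hA₁
  have hvπ : R1.A.valuation π ≠ 0 := (Valuation.ne_zero_iff _).2 hπ
  -- `e := (A₂ - A₁) / (A₁ π) ∈ A`, `A₂ / A₁ ∈ A`
  set e : K := (A₂ - A₁) / (A₁ * π) with he
  have heA : e ∈ R2.A := by
    rw [← hc.A_eq, ← R1.A.valuation_le_one_iff, he, map_div₀, map_mul, hA₁, one_mul,
      ← neg_sub, Valuation.map_neg]
    exact (div_le_one₀ (zero_lt_iff.2 hvπ)).2 hcg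
  set u : K := A₂ / A₁ with hu
  have huA : u ∈ R2.A := by
    rw [← hc.A_eq, ← R1.A.valuation_le_one_iff, hu, map_div₀, hA₁, hA₂, div_one]
  have heW : algebraMap K F e ∈ R2.Rw := (R2.mem_A_iff e).1 heA
  have huW : algebraMap K F u ∈ R2.Rw := (R2.mem_A_iff u).1 huA
  have hπF : algebraMap K F π ≠ 0 := (map_ne_zero_iff _ (algebraMap K F).injective).2 hπ
  have hA₁F : algebraMap K F A₁ ≠ 0 := (map_ne_zero_iff _ (algebraMap K F).injective).2 hA₁0
  have key : y₁ = algebraMap K F e + algebraMap K F u * y₂ := by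
    have h := e₁.symm.trans e₂
    rw [he, hu, map_div₀, map_div₀, map_mul, map_sub]
    field_simp
    linear_combination h
  rw [key]
  exact R2.Rw.add_mem _ _ heW (R2.Rw.mul_mem _ _ huW hy₂)

/-- the common `g1` has the same value at the two branches of every node, as soon as the poles of
`g` are good places (the usable form of "`g1 ∈ O_s`"). -/
theorem glued_value_g1 [Nonempty ι] (H : NodalHyp hc P Q C C₁ C₂ g₀ c₀ n₀) {Z : Divisor K F}
    (hZ : 0 ≤ Z) (hgood : ∀ v ∈ Z.support, GoodPlace H v) {g : F}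
    (hg : g ∈ riemannRochSpace Z) {π A₁ : K} (hπ : π ≠ 0) (hA₁ : R1.A.valuation A₁ = 1)
    {y : F} (h1 : y ∈ R1.Rw) (h2 : y ∈ R2.Rw)
    (e₁ : g = algebraMap K F A₁ * (1 + algebraMap K F π * y)) (j : ι) :
    ∃ c : k, ValueAt (P j) (R1.red ⟨y, h1⟩) c ∧ ValueAt (Q j) (R2.red ⟨y, h2⟩) c := by
  have hA₁0 : A₁ ≠ 0 := fun h0 => by rw [h0, map_zero] at hA₁; exact zero_ne_one hA₁
  have hπF : algebraMap K F π ≠ 0 := (map_ne_zero_iff _ (algebraMap K F).injective).2 hπ
  have hA₁F : algebraMap K F A₁ ≠ 0 := (map_ne_zero_iff _ (algebraMap K F).injective).2 hA₁0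
  have hy : y = algebraMap K F (A₁ * π)⁻¹ * (g - algebraMap K F A₁) := by
    rw [e₁, map_inv₀, map_mul]
    field_simp
    ring
  have hyL : y ∈ riemannRochSpace Z := by
    have h1 : g - algebraMap K F A₁ ∈ riemannRochSpace Z :=
      Submodule.sub_mem _ hg (const_mem_L hZ A₁)
    have h2 := (riemannRochSpace Z).smul_mem (A₁ * π)⁻¹ h1
    rw [Algebra.smul_def] at h2
    rw [hy]
    exact h2
  exact glued_value H hZ hgood h1 h2 hyL j

end Fermat.Agent.GF.KCover.ASNode
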