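import Fermat.Agent.GS.Nodal.Inst.Good
import Fermat.Agent.GH.Disc.Values
import Fermat.Agent.GF.KCover.ASNode.KrullMod

/-!
# GATE-F / GF-ASFORM (KD) (helper60): chart centres do not specialise into a node

`N`, `q ∥ N`, `A | q`, nodal frame `H : NodalHyp (redCompatFN N A h) P Q …` (helper16/helper86),
`Bj ⊂ F₀ = K₀(X₀(N))` a chart ring (elements integral for both Gauss valuations, poles at the
cusps), `𝔫` an ideal of `Bj` containing `q`.

**(KD)** : for an `I_A`-fixed place `X` of `F_N/ℚ̄` reducing to a non-cuspidal point `Q'` of the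
first (resp. second) component, every `b₀ ∈ Bj ∖ 𝔫` whose reduction vanishes at `Q'` can be
corrected by a constant of `𝔪(R₀) ⊆ 𝔫` to a `b ∈ Bj ∖ 𝔫` vanishing AT `X`:
`b := b₀ - b₀(X)`, `b₀(X) ∈ K₀ ∩ 𝔪_A` by EVAL (`GoodAbs.valueAt_of_mem_disc1/2`) and Galois
invariance of values.

* `valueAt_fixed` : the value of a `K₀`-rational function at an `I_A`-fixed place is `I_A`-fixed;
* `exists_const_of_valueAt` : an `I_A`-fixed constant of valuation `< 1` is `ι₀ (q₀ * c)`;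
* `kd_disc1`, `kd_disc2` : (KD) on the two components.
-/

set_option autoImplicit false
set_option linter.unusedSectionVars false
set_option linter.style.haveILetI false

noncomputable section

namespace Fermat.Agent.GF.KCover.ASNode.KD

open AlgebraicCurve IntermediateField Module IsLocalRing ModularCurve
open Fermat.Agent.S24 Fermat.Agent.S24_helper62 Fermat.Agent.RRh45 Fermat.Agent.RR
open Fermat.Agent.GJ.J1 Fermat.Agent.GJ.J1.Val
open Fermat.Agent.GJ.KumGroup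
open Fermat.Agent.GK.AL Fermat.Agent.GK.MultiVal Fermat.Agent.GK.CuspSep
open Fermat.Agent.GK.SymChart Fermat.Agent.GK.SymDegree
open Fermat.Agent.GK.BallTwo
open Fermat.Agent.GK.NodalGraded Fermat.Agent.GK.NodalPole
open Fermat.Agent.GS.Nodal.LSR2 Fermat.Agent.GS.Nodal.Inst
open Fermat.Agent.GL.Val.GaussK0 Fermat.Agent.GL.Val.SecondK0
open Fermat.Agent.GL.Local.InertiaField
open Fermat.Agent.Common_helper32
open Fermat.Agent.GF.KCover.ASNode.KrullMod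

attribute [local instance] Fermat.Agent.GL.Frame.InstK0.algSubringFullC

variable {q : ℕ} (N : ℕ) [NeZero N] [NeZero q] (A : ValuationSubring Kbar) (h : ExactDvd q N)

attribute [local instance] finiteResidues_FN hasPrincipalDivisors_FN nonempty_place_FN
  isAlgClosed_res finiteResidues_Fres hasPrincipalDivisors_Fres nonempty_place_Fres

local notation "F0" => modularFunctionFieldFullC (K0 A) N

/-! ### values at `I_A`-fixed places -/

/-- **the value of a `K₀`-rational function at an `I_A`-fixed place is `I_A`-fixed** -/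
theorem valueAt_fixed (X : Place Kb (FK N))
    (hX : ∀ σ ∈ A.inertiaSubgroupIn ℚ,
      arithmeticGalois (L := Qb) (modularFunctionFieldFull N) σ • X = X)
    (T : F0) {a : Kbar} (ha : ValueAt X (mapK0Bar A N T) a)
    (σ : Qb ≃ₐ[ℚ] Qb) (hσ : σ ∈ A.inertiaSubgroupIn ℚ) : σ a = a := by
  have hσa : ValueAt X (mapK0Bar A N T) (σ a) := by
    unfold ValueAt at ha ⊢
    have e : mapK0Bar A N T - algebraMap Kbar (FN N) (σ a) =
        galF N σ (mapK0Bar A N T - algebraMap Kbar (FN N) a) := by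
      rw [map_sub, Fermat.Agent.GL.RatLiftK0.galF_mapK0Bar A N σ hσ, galF_algebraMap]
    rw [e, mem_ordGE]
    rw [mem_ordGE] at ha
    rcases ha with h0 | h1
    · left
      rw [h0, map_zero]
    · right
      rw [ord_galF]
      have hX' : (arithmeticGalois (L := Qb) (modularFunctionFieldFull N) σ)⁻¹ • X = X := by
        rw [inv_smul_eq_iff, hX σ hσ]
      rw [hX']
      exact h1
  exact (ValueAt.unique ha hσa).symm

variable {A}

/-- an `I_A`-fixed constant of valuation `< 1` comes from `q · R₀` -/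
theorem exists_const_of_fixed (hq : q.Prime) (hA : A.LiesOverPrime q) {a : Kbar}
    (hfix : ∀ σ ∈ A.inertiaSubgroupIn ℚ, σ a = a) (ha : A.valuation a < 1) :
    ∃ c : R0 A, ι0 A (((q0 A q : R0 A) : K0 A) * (c : K0 A)) = a := by
  have hAq : (q : Qb) ∈ A.nonunits := hA
  obtain ⟨c0, hc0⟩ := (mem_range_ι0_iff A a).2 hfix
  have haA : a ∈ A := (A.valuation_le_one_iff a).1 ha.le
  have hc0R : c0 ∈ R0 A := by
    rw [mem_R0_iff, hc0]
    exact haA
  have hnu : ¬ IsUnit (⟨c0, hc0R⟩ : R0 A) := by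
    intro hu
    obtain ⟨u, hu⟩ := hu
    have h1 : ι0 A ((u : R0 A) : K0 A) * ι0 A (((u⁻¹ : (R0 A)ˣ) : R0 A) : K0 A) = 1 := by
      rw [← map_mul]
      have : ((u : R0 A) : K0 A) * (((u⁻¹ : (R0 A)ˣ) : R0 A) : K0 A) = 1 :=
        congrArg Subtype.val u.mul_inv
      rw [this, map_one]
    have h2 : ι0 A ((u : R0 A) : K0 A) = a := by rw [hu]; exact hc0
    rw [h2] at h1
    have h3 : A.valuation (ι0 A (((u⁻¹ : (R0 A)ˣ) : R0 A) : K0 A)) ≤ 1 :=
      (A.valuation_le_one_iff _).2 ((mem_R0_iff A _).1 ((u⁻¹ : (R0 A)ˣ) : R0 A).2)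
    have h4 := congrArg A.valuation h1
    rw [map_mul, map_one] at h4
    have h5 : A.valuation a * A.valuation (ι0 A (((u⁻¹ : (R0 A)ˣ) : R0 A) : K0 A)) < 1 :=
      mul_lt_one_of_nonneg_of_lt_one_left zero_le ha h3
    rw [h4] at h5
    exact lt_irrefl _ h5
  obtain ⟨c, hc⟩ := exists_eq_q0_mul A hq hAq ⟨c0, hc0R⟩ hnu
  refine ⟨c, ?_⟩
  have : c0 = ((q0 A q : R0 A) : K0 A) * (c : K0 A) := congrArg Subtype.val hc
  rw [← this, hc0]

variable (A)

/-! ### (KD) -/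

section Main

variable {ι : Type} [Fintype ι] {P Q : ι → Place (ResidueField A) (FresBar N A)}
variable {g c : ℤ} {n₀ : ℕ}
variable (H : NodalHyp (redCompatFN N A h) P Q (CS N h) (Dτ N A q) (Dτ N A q) g c n₀)
variable (hA : A.LiesOverPrime q)

variable {N A h}

/-- the correction step: `b₀ ∉ 𝔫` with value `a ∈ 𝔪_A` at the `I_A`-fixed place `X` gives
`b = b₀ - a ∈ Bj ∖ 𝔫` vanishing at `X`. -/
theorem kd_of_valueAt (hq : q.Prime) (hA : A.LiesOverPrime q) {Bj : Subring F0}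
    (hR0 : ∀ c : K0 A, c ∈ R0 A → algebraMap (K0 A) F0 c ∈ Bj)
    (𝔫 : Ideal Bj) (hq𝔫 : ∀ b : Bj, (b : F0) = (q : F0) → b ∈ 𝔫)
    (X : Place Kb (FK N))
    (hX : ∀ σ ∈ A.inertiaSubgroupIn ℚ,
      arithmeticGalois (L := Qb) (modularFunctionFieldFull N) σ • X = X)
    (b0 : Bj) (hb0 : b0 ∉ 𝔫) {a : Kbar} (ha : ValueAt X (mapK0Bar A N (b0 : F0)) a)
    (haA : A.valuation a < 1) :
    ∃ b : Bj, b ∉ 𝔫 ∧ 0 < X.ord (mapK0Bar A N (b : F0)) := by
  obtain ⟨c, hc⟩ := exists_const_of_fixed hq hA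
    (fun σ hσ => valueAt_fixed N A X hX (b0 : F0) ha σ hσ) haA
  -- the constants `q` and `c` in `Bj`
  have hqB : algebraMap (K0 A) F0 ((q0 A q : R0 A) : K0 A) ∈ Bj := hR0 _ (q0 A q).2
  have hcB : algebraMap (K0 A) F0 (c : K0 A) ∈ Bj := hR0 _ c.2
  have hq𝔫' : (⟨_, hqB⟩ : Bj) ∈ 𝔫 :=
    hq𝔫 _ (Fermat.Agent.GL.Final.H5UnifK0.algebraMap_q0 A N)
  have hcst : (⟨_, hqB⟩ : Bj) * ⟨_, hcB⟩ ∈ 𝔫 := 𝔫.mul_mem_right _ hq𝔫'
  refine ⟨b0 - (⟨_, hqB⟩ : Bj) * ⟨_, hcB⟩, fun hb => hb0 ?_, ?_⟩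
  · have := 𝔫.add_mem hb hcst
    rwa [sub_add_cancel] at this
  · have e : mapK0Bar A N ((b0 - (⟨_, hqB⟩ : Bj) * ⟨_, hcB⟩ : Bj) : F0) =
        mapK0Bar A N (b0 : F0) - algebraMap Kbar (FN N) a := by
      have e1 : ((b0 - (⟨_, hqB⟩ : Bj) * ⟨_, hcB⟩ : Bj) : F0) =
          (b0 : F0) - algebraMap (K0 A) F0 (((q0 A q : R0 A) : K0 A) * (c : K0 A)) := by
        rw [map_mul]
        rfl
      rw [e1, map_sub, mapK0Bar_algebraMap, hc]
    rw [e]
    have ha' := ha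
    unfold ValueAt at ha'
    rw [mem_ordGE] at ha'
    rcases ha' with h0 | h1
    · exfalso
      apply hb0
      have hb0eq : b0 = (⟨_, hqB⟩ : Bj) * ⟨_, hcB⟩ := by
        apply Subtype.ext
        apply mapK0Bar_injective A N
        have e2 : (((⟨_, hqB⟩ : Bj) * ⟨_, hcB⟩ : Bj) : F0) =
            algebraMap (K0 A) F0 (((q0 A q : R0 A) : K0 A) * (c : K0 A)) := by
          rw [map_mul]
          rfl
        rw [e2, mapK0Bar_algebraMap, hc]
        exact sub_eq_zero.1 h0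
      rw [hb0eq]
      exact hcst
    · exact lt_of_lt_of_le zero_lt_one h1

include hA in
/-- **(KD), first component**: `X ∈ disc1 H Q'`, `Q'` not a cusp, `b₀ ∈ Bj ∖ 𝔫` with
`red₁ b₀ (Q') = 0`. -/
theorem kd_disc1 {Bj : Subring F0}
    (hB1 : ∀ b : Bj, mapK0Bar A N (b : F0) ∈ (redDataBar N A).Rw)
    (hB2 : ∀ b : Bj, mapK0Bar A N (b : F0) ∈ (redData2 N A h).Rw)
    (hBL : ∀ b : Bj, ∃ m : ℕ, mapK0Bar A N (b : F0) ∈ riemannRochSpace (m • CS N h))
    (hR0 : ∀ c : K0 A, c ∈ R0 A → algebraMap (K0 A) F0 c ∈ Bj)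
    (𝔫 : Ideal Bj) (hq𝔫 : ∀ b : Bj, (b : F0) = (q : F0) → b ∈ 𝔫)
    (X : Place Kb (FK N))
    (hX : ∀ σ ∈ A.inertiaSubgroupIn ℚ,
      arithmeticGalois (L := Qb) (modularFunctionFieldFull N) σ • X = X)
    {Q' : Place (ResidueField A) (FresBar N A)} (hd : X ∈ disc1 H Q')
    (hQ' : 0 ≤ Q'.ord (tauF N A)) (b0 : Bj) (hb0 : b0 ∉ 𝔫)
    (hb0Q : ValueAt Q' ((redDataBar N A).red ⟨mapK0Bar A N (b0 : F0), hB1 b0⟩) 0) :
    ∃ b : Bj, b ∉ 𝔫 ∧ 0 < X.ord (mapK0Bar A N (b : F0)) := by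
  haveI : Infinite (ResidueField A) := IsAlgClosed.instInfinite
  have hCQ : Dτ N A q Q' = 0 := (Dτ_eq_zero_iff N A Q').mpr hQ'
  have hCX : CS N h X = 0 := by
    by_contra hne
    have h0 : 0 ≤ CS N h X := by
      by_contra hneg
      have := (CS_eq_zero_iff N h X).2
      have h1 := (CS_pos_iff N h X)
      have : 0 ≤ X.ord (jF N) ∨ X.ord (jF N) < 0 := le_or_gt 0 _
      rcases this with h2 | h2
      · exact hne ((CS_eq_zero_iff N h X).2 h2)
      · have := h1.2 h2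
        omega
    have hpos : 0 < CS N h X := lt_of_le_of_ne h0 (Ne.symm hne)
    have := pos_C₁_of_mem_disc1 hpos hd
    omega
  obtain ⟨m, hm⟩ := hBL b0
  obtain ⟨a, ha1, ha2⟩ := valueAt_of_mem_disc1 hd hCX hCQ (hB1 b0) (hB2 b0) hm
  have hres : (redDataBar N A).res a = 0 := ValueAt.unique ha2 hb0Q
  have haA : A.valuation (a : Kbar) < 1 :=
    (Fermat.Agent.GH.Disc.res_eq_zero_iff (R := redDataBar N A) a).1 hres
  exact kd_of_valueAt h.prime hA hR0 𝔫 hq𝔫 X hX b0 hb0 ha1 haA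

include hA in
/-- **(KD), second component**: `X ∈ disc2 H Q'`, `Q'` not a cusp, `b₀ ∈ Bj ∖ 𝔫` with
`red₂ b₀ (Q') = 0`. -/
theorem kd_disc2 {Bj : Subring F0}
    (hB1 : ∀ b : Bj, mapK0Bar A N (b : F0) ∈ (redDataBar N A).Rw)
    (hB2 : ∀ b : Bj, mapK0Bar A N (b : F0) ∈ (redData2 N A h).Rw)
    (hBL : ∀ b : Bj, ∃ m : ℕ, mapK0Bar A N (b : F0) ∈ riemannRochSpace (m • CS N h))
    (hR0 : ∀ c : K0 A, c ∈ R0 A → algebraMap (K0 A) F0 c ∈ Bj)
    (𝔫 : Ideal Bj) (hq𝔫 : ∀ b : Bj, (b : F0) = (q : F0) → b ∈ 𝔫)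
    (X : Place Kb (FK N))
    (hX : ∀ σ ∈ A.inertiaSubgroupIn ℚ,
      arithmeticGalois (L := Qb) (modularFunctionFieldFull N) σ • X = X)
    {Q' : Place (ResidueField A) (FresBar N A)} (hd : X ∈ disc2 H Q')
    (hQ' : 0 ≤ Q'.ord (tauF N A)) (b0 : Bj) (hb0 : b0 ∉ 𝔫)
    (hb0Q : ValueAt Q' ((redData2 N A h).red ⟨mapK0Bar A N (b0 : F0), hB2 b0⟩) 0) :
    ∃ b : Bj, b ∉ 𝔫 ∧ 0 < X.ord (mapK0Bar A N (b : F0)) := by
  haveI : Infinite (ResidueField A) := IsAlgClosed.instInfinite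
  have hCQ : Dτ N A q Q' = 0 := (Dτ_eq_zero_iff N A Q').mpr hQ'
  have hCX : CS N h X = 0 := by
    by_contra hne
    have hpos : 0 < CS N h X := by
      rcases le_or_gt 0 (X.ord (jF N)) with h2 | h2
      · exact absurd ((CS_eq_zero_iff N h X).2 h2) hne
      · exact (CS_pos_iff N h X).2 h2
    have := pos_C₂_of_mem_disc2 hpos hd
    omega
  obtain ⟨m, hm⟩ := hBL b0
  obtain ⟨a, ha1, ha2⟩ := valueAt_of_mem_disc2 hd hCX hCQ (hB1 b0) (hB2 b0) hm
  have hres : (redData2 N A h).res a = 0 := ValueAt.unique ha2 hb0Q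
  have haA : (redData2 N A h).A.valuation (a : Kbar) < 1 :=
    (Fermat.Agent.GH.Disc.res_eq_zero_iff (R := redData2 N A h) a).1 hres
  have haA' : A.valuation (a : Kbar) < 1 := haA
  exact kd_of_valueAt h.prime hA hR0 𝔫 hq𝔫 X hX b0 hb0 ha1 haA'

end Main

end Fermat.Agent.GF.KCover.ASNode.KD
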