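import Fermat.Agent.GF.KCover.Node.NodeRingK0
import Fermat.Agent.GL.Frame.NodeSS_K0
import Fermat.Agent.GF.Eis.NodesCentred
import Fermat.Agent.GF.KCover.ASNode.KD

/-!
# GATE-F / GF-ASFORM (KD) on the finite chart (helper60)

`B = BRingK0 N' ℓ A h`, `𝔫 = NodeRingK0.centre h hℓN hA Qn hQn` the centre of a place `Qn` of the
first component `FresBar N' A` (helper75), `X` an `I_A`-fixed place of `F_N/ℚ̄` with `j(X) = a ∈ A`.

* `kd_of_jvalue` : `b := j - a ∈ B` vanishes at `X`; it is not in an ideal `𝔫` as soon as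
  `j - c₀ ∉ 𝔫` for the `c₀ ∈ R₀` with `ι₀ c₀ = a`;
* `kd_centre` : for `𝔫 = centre Qn`, this holds when `j~(Qn) ≠ res a`
  (**the `j`-value of the chart centre does not reduce to the `j`-value of the node**; arranged by
  choosing the chart off the finitely many special points over the node values,
  `ASRep.exists_fixed_chart_off`).
-/

set_option autoImplicit false
set_option linter.unusedSectionVars false
set_option linter.style.haveILetI false

noncomputable section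

namespace Fermat.Agent.GF.KCover.ASNode.KDChart

open AlgebraicCurve IsLocalRing ModularCurve
open Fermat.Agent.S24 Fermat.Agent.S24_helper62 Fermat.Agent.S24_helper6
open Fermat.Agent.GJ.J1 Fermat.Agent.GJ.J1.Val Fermat.Agent.GJ.KumGroup
open Fermat.Agent.GK.AL Fermat.Agent.GK.QS Fermat.Agent.GK.NodalGraded Fermat.Agent.GK.NodalBridge
open Fermat.Agent.GL.Val.GaussK0 Fermat.Agent.GL.Val.SecondK0 Fermat.Agent.GL.Val.DegBase
open Fermat.Agent.RRh45
open Fermat.Agent.GL.BRingK0 Fermat.Agent.GL.Thick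
open Fermat.Agent.Common_helper32
open Fermat.Agent.GF.KCover.Node
open Fermat.Agent.GF.KCover.ASNode.KD

attribute [local instance] Fermat.Agent.GL.Frame.InstK0.algSubringFullC

variable {A : ValuationSubring Qb} {N' : ℕ} [NeZero N'] {ℓ : ℕ} [Fact ℓ.Prime] [NeZero ℓ]
  (h : ExactDvd ℓ (N' * ℓ)) (hℓN : ¬ ℓ ∣ N') (hA : A.LiesOverPrime ℓ)

local notation "F0" => modularFunctionFieldFullC (K0 A) (N' * ℓ)
local notation "kA" => IsLocalRing.ResidueField A

/-- `j - a` is not zero in `F_N` -/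
theorem jF_sub_const_ne_zero (a : Kbar) :
    jF (N' * ℓ) - algebraMap Kbar (FN (N' * ℓ)) a ≠ 0 := fun h0 =>
  (isGen_jF (N' * ℓ)).transcendental (sub_eq_zero.mp h0 ▸ isAlgebraic_algebraMap a)

/-- **(KD), `j`-value form, any ideal of the finite chart** -/
theorem kd_of_jvalue (𝔫 : Ideal (BRingK0 N' ℓ A h)) (X : Place Kb (FK (N' * ℓ)))
    (hX : ∀ σ ∈ A.inertiaSubgroupIn ℚ,
      arithmeticGalois (L := Qb) (modularFunctionFieldFull (N' * ℓ)) σ • X = X)
    {a : Kbar} (ha : ValueAt X (jF (N' * ℓ)) a) (haA : a ∈ A)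
    (hsep : ∀ c0 : R0 A, ι0 A (c0 : K0 A) = a →
      jK0B N' ℓ A h - cstK0 N' ℓ A h c0 ∉ 𝔫) :
    ∃ b : BRingK0 N' ℓ A h, b ∉ 𝔫 ∧ 0 < X.ord (mapK0Bar A (N' * ℓ) (b : F0)) := by
  have hjC : mapK0Bar A (N' * ℓ) (jC (N' * ℓ) (K0 A)) = jF (N' * ℓ) :=
    Fermat.Agent.GL.RatBRing.mapK0Bar_jC A (N' * ℓ)
  have ha' : ValueAt X (mapK0Bar A (N' * ℓ) (jC (N' * ℓ) (K0 A))) a := by rw [hjC]; exact ha
  have hfix := valueAt_fixed (N' * ℓ) A X hX (jC (N' * ℓ) (K0 A)) ha'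
  obtain ⟨c0, hc0⟩ := (mem_range_ι0_iff A a).2 hfix
  have hc0R : c0 ∈ R0 A := by
    rw [mem_R0_iff, hc0]
    exact haA
  refine ⟨jK0B N' ℓ A h - cstK0 N' ℓ A h ⟨c0, hc0R⟩, hsep ⟨c0, hc0R⟩ hc0, ?_⟩
  have e : mapK0Bar A (N' * ℓ) ((jK0B N' ℓ A h - cstK0 N' ℓ A h ⟨c0, hc0R⟩ :
      BRingK0 N' ℓ A h) : F0) = jF (N' * ℓ) - algebraMap Kbar (FN (N' * ℓ)) a := by
    have e1 : ((jK0B N' ℓ A h - cstK0 N' ℓ A h ⟨c0, hc0R⟩ : BRingK0 N' ℓ A h) : F0) =
        jC (N' * ℓ) (K0 A) - algebraMap (K0 A) F0 c0 := rfl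
    rw [e1, map_sub, hjC, mapK0Bar_algebraMap, hc0]
  rw [e]
  unfold ValueAt at ha
  rw [mem_ordGE] at ha
  rcases ha with h0 | h1
  · exact absurd h0 (jF_sub_const_ne_zero a)
  · exact lt_of_lt_of_le zero_lt_one h1

variable [IsDedekindDomain (CRing N' A)] [IsFractionRing (CRing N' A) (FresBar N' A)]

/-- the residue of an element of `R₀`, computed in `A` -/
theorem resR0_eq (c0 : R0 A) :
    resR0 A c0 = IsLocalRing.residue A ⟨ι0 A (c0 : K0 A), (mem_R0_iff A _).1 c0.2⟩ := by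
  unfold resR0
  rw [RingHom.comp_apply]
  exact Fermat.Agent.GK.Val.BaseChange.resMap_residue (ι0 A) (R0 A) A (hA0 A) c0

include hA in
/-- **(KD) at the centre of a place `Qn` of the first component**: an `I_A`-fixed place `X` with
`j(X) = a ∈ A` whose residue is not the `j~`-value of `Qn` does not specialise into the centre of
`Qn` on the finite chart. -/
theorem kd_centre (Qn : Place kA (FresBar N' A)) (hQn : ContainsB (CRing N' A) Qn)
    (X : Place Kb (FK (N' * ℓ)))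
    (hX : ∀ σ ∈ A.inertiaSubgroupIn ℚ,
      arithmeticGalois (L := Qb) (modularFunctionFieldFull (N' * ℓ)) σ • X = X)
    {a : Kbar} (ha : ValueAt X (jF (N' * ℓ)) a) (haA : a ∈ A)
    (hne : ¬ ValueAt Qn (algebraMap (CRing N' A) (FresBar N' A) (jtC N' A))
      (IsLocalRing.residue A ⟨a, haA⟩)) :
    ∃ b : BRingK0 N' ℓ A h, b ∉ NodeRingK0.centre h hℓN hA Qn hQn ∧
      0 < X.ord (mapK0Bar A (N' * ℓ) (b : F0)) := by
  refine kd_of_jvalue h (NodeRingK0.centre h hℓN hA Qn hQn) X hX ha haA fun c0 hc0 hmem => hne ?_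
  rw [NodeRingK0.centre, Ideal.mem_comap, map_sub, redC1K0_jK0B, redC1K0_cstK0,
    primeOfPlace_asIdeal] at hmem
  have hcen := Fermat.Agent.GF.Eis.NodesCentred.centredAt_centre (k := kA) Qn hQn
  have hv := (hcen.valueAt_iff (jtC N' A) (resR0 A c0)).2 hmem
  have e : resR0 A c0 = IsLocalRing.residue A ⟨a, haA⟩ := by
    rw [resR0_eq]
    congr 1
    exact Subtype.ext hc0
  rw [e] at hv
  exact hv

/-! ### (KD) from the nodal frame: centres in the discs of special points off the node values -/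

section Frame

open Fermat.Agent.GK.CuspSep Fermat.Agent.GK.BallTwo Fermat.Agent.GK.SymChart
open Fermat.Agent.GS.Nodal.LSR2 Fermat.Agent.GS.Nodal.Inst

attribute [local instance] finiteResidues_FN hasPrincipalDivisors_FN nonempty_place_FN
  isAlgClosed_res finiteResidues_Fres hasPrincipalDivisors_Fres nonempty_place_Fres

variable {κ : Type} [Fintype κ]
  {P Q : κ → Place (IsLocalRing.ResidueField A) (FresBar (N' * ℓ) A)}
variable {g c : ℤ} {n₀ : ℕ}

include hA in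
/-- **(KD), first component**: the chart centre `X` reduces to the non-cuspidal point `Q'` of the
first component, `Qn` has `j~`-value `c₀`, and `τ(Q') ≠ c₀`. -/
theorem kd_centre_of_disc1
    (H : NodalHyp (redCompatFN (N' * ℓ) A h) P Q (CS (N' * ℓ) h) (Dτ (N' * ℓ) A ℓ)
      (Dτ (N' * ℓ) A ℓ) g c n₀)
    (Qn : Place kA (FresBar N' A)) (hQn : ContainsB (CRing N' A) Qn)
    {c₀ : kA} (hQnc : ValueAt Qn (algebraMap (CRing N' A) (FresBar N' A) (jtC N' A)) c₀)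
    (X : Place Kb (FK (N' * ℓ)))
    (hX : ∀ σ ∈ A.inertiaSubgroupIn ℚ,
      arithmeticGalois (L := Qb) (modularFunctionFieldFull (N' * ℓ)) σ • X = X)
    {Q' : Place kA (FresBar (N' * ℓ) A)} (hd : X ∈ disc1 H Q')
    (hQ' : 0 ≤ Q'.ord (tauF (N' * ℓ) A)) (hQ'c : ¬ ValueAt Q' (tauF (N' * ℓ) A) c₀) :
    ∃ b : BRingK0 N' ℓ A h, b ∉ NodeRingK0.centre h hℓN hA Qn hQn ∧
      0 < X.ord (mapK0Bar A (N' * ℓ) (b : F0)) := by
  haveI : Infinite kA := IsAlgClosed.instInfinite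
  have hXj : 0 ≤ X.ord (jF (N' * ℓ)) := by
    by_contra hneg
    have := ord_tau_neg_of_mem_disc1 (N' * ℓ) A h H (not_le.1 hneg) hd
    omega
  obtain ⟨a, ha1, ha2⟩ := valueAt_jF_of_mem_disc1 (N' * ℓ) A h H hA hd hXj hQ'
  refine kd_centre h hℓN hA Qn hQn X hX ha1 a.2 fun hv => hQ'c ?_
  have e : c₀ = IsLocalRing.residue A ⟨(a : Kbar), a.2⟩ := ValueAt.unique hQnc hv
  rw [e]
  exact ha2

include hA in
/-- **(KD), second component**: the chart centre `X` reduces to the non-cuspidal point `Q'` of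
the second component, `Qn` has `j~`-value `c₀`, and `τ(Q') ^ ℓ ≠ c₀`. -/
theorem kd_centre_of_disc2
    (H : NodalHyp (redCompatFN (N' * ℓ) A h) P Q (CS (N' * ℓ) h) (Dτ (N' * ℓ) A ℓ)
      (Dτ (N' * ℓ) A ℓ) g c n₀)
    (Qn : Place kA (FresBar N' A)) (hQn : ContainsB (CRing N' A) Qn)
    {c₀ : kA} (hQnc : ValueAt Qn (algebraMap (CRing N' A) (FresBar N' A) (jtC N' A)) c₀)
    (X : Place Kb (FK (N' * ℓ)))
    (hX : ∀ σ ∈ A.inertiaSubgroupIn ℚ,
      arithmeticGalois (L := Qb) (modularFunctionFieldFull (N' * ℓ)) σ • X = X)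
    {Q' : Place kA (FresBar (N' * ℓ) A)} (hd : X ∈ disc2 H Q')
    (hQ' : 0 ≤ Q'.ord (tauF (N' * ℓ) A)) (hQ'c : ¬ ValueAt Q' (tauF (N' * ℓ) A ^ ℓ) c₀) :
    ∃ b : BRingK0 N' ℓ A h, b ∉ NodeRingK0.centre h hℓN hA Qn hQn ∧
      0 < X.ord (mapK0Bar A (N' * ℓ) (b : F0)) := by
  haveI : Infinite kA := IsAlgClosed.instInfinite
  have hXj : 0 ≤ X.ord (jF (N' * ℓ)) := by
    by_contra hneg
    have := ord_tau_neg_of_mem_disc2 (N' * ℓ) A h H (not_le.1 hneg) hd
    omega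
  obtain ⟨a, ha1, ha2⟩ := valueAt_jF_of_mem_disc2 (N' * ℓ) A h H hA hd hXj hQ'
  have haA : (a : Kbar) ∈ A := a.2
  refine kd_centre h hℓN hA Qn hQn X hX ha1 haA fun hv => hQ'c ?_
  have e : c₀ = IsLocalRing.residue A ⟨(a : Kbar), haA⟩ := ValueAt.unique hQnc hv
  rw [e]
  exact ha2

end Frame

end Fermat.Agent.GF.KCover.ASNode.KDChart
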