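/-
GATE-F, leaf GF-KCOVER-CONSTPTH (helper57; named by helper13, board 6555):
`1 + ϖ^p · O_{K'} ⊆ K'^{×p}` for `ϖ = 1 - ζ_p`, `K' = ℚ̄^Γ`, `Γ ⊆ I_A` fixing `ζ_p`, `A | p`.

* `mem_of_one_add_mul_pow`   : `(1 + ϖ y)^p = u`, `(u - 1)/ϖ^p ∈ A` ⟹ `y ∈ A`;
* `sub_one_div_mem_of_pow_eq`: `v^p = u`, `(u - 1)/ϖ^p ∈ A` ⟹ `(v - 1)/ϖ ∈ A`
  (EVERY `p`-th root of `u` is `≡ 1 mod ϖ`);
* `apply_eq_of_pow_eq`       : such a `v` is fixed by every `σ ∈ I_A` fixing `ζ` and `u`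
  (`σ v = ζ^j v`, `(σ y - y) = -v (1 + ζ + … + ζ^(j-1)) ≡ -j mod 𝔪_A`, so `j = 0`);
* `exists_pth_root_fixed`    : `∃ v, v^p = u ∧ (∀ σ ∈ Γ, σ v = v) ∧ (v - 1)/(1 - ζ) ∈ A`;
* `exists_pth_root_fixed'`   : the same with `ζ - 1` in place of `1 - ζ` (helper40's `ϖ`);
* `exists_pth_root_fixed_of_div` : for a quotient `a₁ / a₂` of two constants;
* `exists_pth_root_fixed_of_valuation_le` : the same in the valuation form produced by
  `GlueConst.const_congr` (`v(a₁ - a₂) ≤ v(π)`, `π := (ζ - 1)^p`, `v(a₂) = 1`).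

No Hensel, no completeness: `ℚ̄` is algebraically closed, `A` is integrally closed, inertia acts
trivially on the residue field.
-/
import Mathlib
import Fermat.Agent.GL.Local.TameZeta
import Fermat.Agent.S05.Inertia

set_option autoImplicit false
set_option linter.unusedSectionVars false

open Fermat.Agent.Common_helper32 Fermat.Agent.S13.Global
open Fermat.Agent.GL.Local.InertiaField

namespace Fermat.Agent.GF.KCover.ASNode.ConstPth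

variable (A : ValuationSubring Qb) {p : ℕ} (hp : p.Prime) (hA : (p : Qb) ∈ A.nonunits)
variable {ζ : Qb} (hζ : IsPrimitiveRoot ζ p)

include hp hζ in
/-- `(1 + ϖ y)^p ≡ 1 mod ϖ^p` forces `y` to be integral. -/
theorem mem_of_one_add_mul_pow {u y : Qb} (hyu : (1 + (1 - ζ) * y) ^ p = u)
    (hu : (u - 1) / (1 - ζ) ^ p ∈ A) : y ∈ A := by
  have h0 := one_sub_zeta_ne_zero hp hζ
  by_contra hy
  have hy1 : 1 < A.valuation y := by
    rw [← A.valuation_le_one_iff] at hy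
    exact not_le.mp hy
  have : NeZero p := ⟨hp.ne_zero⟩
  have hfac : ∀ μ ∈ Polynomial.nthRootsFinset p (1 : Qb),
      A.valuation ((1 + (1 - ζ) * y) - μ * 1) = A.valuation (1 - ζ) * A.valuation y := by
    intro μ hμ
    have hμ1 : μ ^ p = 1 := (Polynomial.mem_nthRootsFinset hp.pos 1).mp hμ
    obtain ⟨j, -, rfl⟩ := hζ.eq_pow_of_pow_eq_one hμ1
    have h1 : (1 + (1 - ζ) * y) - ζ ^ j * 1 = (1 - ζ) * (y + ∑ i ∈ Finset.range j, ζ ^ i) := by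
      have := one_sub_pow_eq_geom_sum_mul ζ j
      linear_combination this
    rw [h1, map_mul]
    congr 1
    apply Valuation.map_add_eq_of_lt_left
    have h2 : A.valuation (∑ i ∈ Finset.range j, ζ ^ i) ≤ 1 := by
      rw [A.valuation_le_one_iff]
      exact sum_mem fun i _ => pow_mem (zeta_mem A hp hζ).1 i
    exact lt_of_le_of_lt h2 hy1
  have hprod : A.valuation (u - 1) = (A.valuation (1 - ζ) * A.valuation y) ^ p := by
    have := hζ.pow_sub_pow_eq_prod_sub_mul (1 + (1 - ζ) * y) 1 hp.pos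
    rw [one_pow, hyu] at this
    rw [this, map_prod, Finset.prod_congr rfl hfac, Finset.prod_const, hζ.card_nthRootsFinset]
  have hb : 0 < A.valuation (1 - ζ) ^ p :=
    pow_pos (zero_lt_iff.mpr ((map_ne_zero _).mpr h0)) p
  have hu' : A.valuation (u - 1) ≤ A.valuation (1 - ζ) ^ p := by
    have h3 := (A.valuation_le_one_iff _).mpr hu
    rw [map_div₀, map_pow] at h3
    exact (div_le_one₀ hb).mp h3
  rw [hprod, mul_pow] at hu'
  have h4 : A.valuation y ^ p ≤ 1 := by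
    by_contra hcon
    push Not at hcon
    have := mul_lt_mul_of_pos_left hcon hb
    rw [mul_one] at this
    exact absurd hu' (not_le.mpr this)
  exact absurd h4 (not_le.mpr (one_lt_pow₀ hy1 hp.ne_zero))

include hp hζ in
/-- every `p`-th root of `u ≡ 1 mod ϖ^p` is `≡ 1 mod ϖ`. -/
theorem sub_one_div_mem_of_pow_eq {u v : Qb} (hvu : v ^ p = u)
    (hu : (u - 1) / (1 - ζ) ^ p ∈ A) : (v - 1) / (1 - ζ) ∈ A := by
  have h0 := one_sub_zeta_ne_zero hp hζ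
  apply mem_of_one_add_mul_pow A hp hζ _ hu
  rw [mul_div_cancel₀ _ h0, add_sub_cancel, hvu]

include hp hA hζ in
/-- a `p`-th root of `u ≡ 1 mod ϖ^p` is fixed by every inertia element fixing `ζ` and `u`. -/
theorem apply_eq_of_pow_eq {u v : Qb} (hvu : v ^ p = u) (hu : (u - 1) / (1 - ζ) ^ p ∈ A)
    {σ : GQ} (hσI : σ ∈ A.inertiaSubgroupIn ℚ) (hσζ : σ ζ = ζ) (hσu : σ u = u) : σ v = v := by
  have h0 := one_sub_zeta_ne_zero hp hζ
  have hϖ : A.valuation (1 - ζ) < 1 :=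
    (A.mem_nonunits_iff).mp (one_sub_zeta_mem_nonunits A hp hA hζ)
  have hy : (v - 1) / (1 - ζ) ∈ A := sub_one_div_mem_of_pow_eq A hp hζ hvu hu
  set y : Qb := (v - 1) / (1 - ζ) with hy_def
  have hvy : v = 1 + (1 - ζ) * y := by
    rw [hy_def, mul_div_cancel₀ _ h0, add_sub_cancel]
  -- `v` is a unit of `A`
  have hv1 : A.valuation v = 1 := by
    rw [hvy]
    apply Valuation.map_one_add_of_lt
    rw [map_mul]
    calc A.valuation (1 - ζ) * A.valuation y ≤ A.valuation (1 - ζ) * 1 := by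
          gcongr
          exact (A.valuation_le_one_iff _).mpr hy
      _ < 1 := by rw [mul_one]; exact hϖ
  have hv0 : v ≠ 0 := by
    intro h
    rw [h, map_zero] at hv1
    exact zero_ne_one hv1
  -- `σ v = ζ^j v`
  have : NeZero p := ⟨hp.ne_zero⟩
  have hpow : (σ v / v) ^ p = 1 := by
    rw [div_pow, ← map_pow, hvu, hσu, div_self]
    rw [← hvu]
    exact pow_ne_zero _ hv0
  obtain ⟨j, hj, hjv⟩ := hζ.eq_pow_of_pow_eq_one hpow
  have hσv : σ v = ζ ^ j * v := by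
    rw [hjv, div_mul_cancel₀ _ hv0]
  -- `σ y - y = -v (1 + ζ + … + ζ^(j-1))`
  have hσy : σ y - y = -(v * ∑ i ∈ Finset.range j, ζ ^ i) := by
    have hσy' : σ y = (σ v - 1) / (1 - ζ) := by
      rw [hy_def, map_div₀, map_sub, map_sub, map_one, hσζ]
    rw [hσy', hσv, hy_def, ← sub_div, div_eq_iff h0]
    have := one_sub_pow_eq_geom_sum_mul ζ j
    linear_combination (-v) * this
  have h1 : σ y - y ∈ A.nonunits :=
    Fermat.Agent.S05.apply_sub_mem_nonunits_of_mem_inertiaSubgroupIn hσI hy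
  rw [hσy] at h1
  have h2 : A.valuation (∑ i ∈ Finset.range j, ζ ^ i) < 1 := by
    have h3 := (A.mem_nonunits_iff).mp h1
    rwa [Valuation.map_neg, map_mul, hv1, one_mul] at h3
  have h4 : (j : Qb) ∈ A.nonunits := by
    have h5 := geom_sum_sub_natCast_mem_nonunits A hp hA hζ j
    have h6 : (j : Qb) = (∑ i ∈ Finset.range j, ζ ^ i) - ((∑ i ∈ Finset.range j, ζ ^ i) - j) := by
      ring
    rw [h6]
    exact sub_mem ((A.mem_nonunits_iff).mpr h2) h5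
  have h7 : p ∣ j := (Fermat.Agent.S05.natCast_mem_nonunits_iff hp hA j).mp h4
  have hj0 : j = 0 := Nat.eq_zero_of_dvd_of_lt h7 hj
  rw [hσv, hj0, pow_zero, one_mul]

include hp hA hζ in
/-- **`1 + ϖ^p O_{K'} ⊆ K'^{×p}`** (`ϖ = 1 - ζ`). -/
theorem exists_pth_root_fixed (Γ : Set GQ) (hΓI : Γ ⊆ ↑(A.inertiaSubgroupIn ℚ))
    (hΓζ : ∀ σ ∈ Γ, σ ζ = ζ) {u : Qb} (hu : (u - 1) / (1 - ζ) ^ p ∈ A)
    (huΓ : ∀ σ ∈ Γ, σ u = u) :
    ∃ v : Qb, v ^ p = u ∧ (∀ σ ∈ Γ, σ v = v) ∧ (v - 1) / (1 - ζ) ∈ A := by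
  obtain ⟨v, hv⟩ := IsAlgClosed.exists_pow_nat_eq u hp.pos
  exact ⟨v, hv, fun σ hσ => apply_eq_of_pow_eq A hp hA hζ hv hu (hΓI hσ) (hΓζ σ hσ) (huΓ σ hσ),
    sub_one_div_mem_of_pow_eq A hp hζ hv hu⟩

/-- sign change `ζ - 1` versus `1 - ζ`. -/
theorem div_sub_one_pow_mem_iff (ζ x : Qb) (n : ℕ) :
    x / (ζ - 1) ^ n ∈ A ↔ x / (1 - ζ) ^ n ∈ A := by
  have h : (ζ - 1) ^ n = (-1) ^ n * (1 - ζ) ^ n := by
    rw [← mul_pow]
    congr 1
    ring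
  rcases neg_one_pow_eq_or Qb n with h1 | h1
  · rw [h, h1, one_mul]
  · rw [h, h1, neg_one_mul, div_neg]
    exact neg_mem_iff

include hp hA hζ in
/-- the same with helper40's uniformiser `ϖ = ζ - 1`. -/
theorem exists_pth_root_fixed' (Γ : Set GQ) (hΓI : Γ ⊆ ↑(A.inertiaSubgroupIn ℚ))
    (hΓζ : ∀ σ ∈ Γ, σ ζ = ζ) {u : Qb} (hu : (u - 1) / (ζ - 1) ^ p ∈ A)
    (huΓ : ∀ σ ∈ Γ, σ u = u) :
    ∃ v : Qb, v ^ p = u ∧ (∀ σ ∈ Γ, σ v = v) ∧ (v - 1) / (ζ - 1) ∈ A := by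
  obtain ⟨v, hv, hvΓ, hv1⟩ := exists_pth_root_fixed A hp hA hζ Γ hΓI hΓζ
    ((div_sub_one_pow_mem_iff A ζ _ p).mp hu) huΓ
  refine ⟨v, hv, hvΓ, ?_⟩
  have := (div_sub_one_pow_mem_iff A ζ (v - 1) 1).mpr (by rwa [pow_one])
  rwa [pow_one] at this

include hp hA hζ in
/-- two `Γ`-fixed constants which agree modulo `ϖ^p` (relative to the unit `a₂`) differ by a
`Γ`-fixed `p`-th power: `a₁ = a₂ · v^p`. -/
theorem exists_pth_root_fixed_of_div (Γ : Set GQ) (hΓI : Γ ⊆ ↑(A.inertiaSubgroupIn ℚ))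
    (hΓζ : ∀ σ ∈ Γ, σ ζ = ζ) {a₁ a₂ : Qb} (ha₂ : a₂ ≠ 0)
    (h : (a₁ / a₂ - 1) / (ζ - 1) ^ p ∈ A)
    (ha₁Γ : ∀ σ ∈ Γ, σ a₁ = a₁) (ha₂Γ : ∀ σ ∈ Γ, σ a₂ = a₂) :
    ∃ v : Qb, a₁ = a₂ * v ^ p ∧ (∀ σ ∈ Γ, σ v = v) ∧ (v - 1) / (ζ - 1) ∈ A := by
  obtain ⟨v, hv, hvΓ, hv1⟩ := exists_pth_root_fixed' A hp hA hζ Γ hΓI hΓζ h
    (fun σ hσ => by rw [map_div₀, ha₁Γ σ hσ, ha₂Γ σ hσ])
  exact ⟨v, by rw [hv, mul_div_cancel₀ _ ha₂], hvΓ, hv1⟩

include hp hA hζ in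
/-- valuation form (the output shape of helper60's `GlueConst.const_congr` with `π := (ζ - 1)^p`):
two `Γ`-fixed unit constants with `v(a₁ - a₂) ≤ v((ζ - 1)^p)` differ by a `Γ`-fixed `p`-th
power. -/
theorem exists_pth_root_fixed_of_valuation_le (Γ : Set GQ)
    (hΓI : Γ ⊆ ↑(A.inertiaSubgroupIn ℚ)) (hΓζ : ∀ σ ∈ Γ, σ ζ = ζ) {a₁ a₂ : Qb}
    (ha₂ : A.valuation a₂ = 1)
    (h : A.valuation (a₁ - a₂) ≤ A.valuation ((ζ - 1) ^ p))
    (ha₁Γ : ∀ σ ∈ Γ, σ a₁ = a₁) (ha₂Γ : ∀ σ ∈ Γ, σ a₂ = a₂) :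
    ∃ v : Qb, a₁ = a₂ * v ^ p ∧ (∀ σ ∈ Γ, σ v = v) ∧ (v - 1) / (ζ - 1) ∈ A := by
  have ha₂0 : a₂ ≠ 0 := by
    intro h0
    rw [h0, map_zero] at ha₂
    exact zero_ne_one ha₂
  have hϖ0 : (ζ - 1) ^ p ≠ 0 := by
    apply pow_ne_zero
    intro h0
    exact one_sub_zeta_ne_zero hp hζ (by rw [← neg_sub, h0, neg_zero])
  apply exists_pth_root_fixed_of_div A hp hA hζ Γ hΓI hΓζ ha₂0 _ ha₁Γ ha₂Γ
  rw [← A.valuation_le_one_iff]
  have e : (a₁ / a₂ - 1) / (ζ - 1) ^ p = (a₁ - a₂) / (a₂ * (ζ - 1) ^ p) := by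
    field_simp
  rw [e, map_div₀, map_mul, ha₂, one_mul]
  exact (div_le_one₀ (zero_lt_iff.mpr ((map_ne_zero _).mpr hϖ0))).mpr h

end Fermat.Agent.GF.KCover.ASNode.ConstPth
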