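/-
GATE-F / GF-ASFORM plug (helper60, second seat under helper40): **the frame hypotheses of helper40's
abstract `ASForm.exists_asForm` (`GF/KCover/ASForm.lean`), discharged on helper16's nodal frame**
(`LSR2.NodalHyp`), VERBATIM in his spelling:

`W₁ := R1.Rw`, `W₂ := R2.Rw`, `Λ := L(Z)` (as an additive subgroup of `F`) for an effective divisor
`Z` supported on good places (`Z = p • 𝔠.D0` in the application), `C` ANY subfield of `F` consisting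
of constants (`C ≤ (algebraMap K F).range`; `C = K'` in the application).

* `hC12_of_nodal`    : `∀ c ∈ C, c ∈ W₁ → c ∈ W₂`;
* `hΛC_of_nodal`     : `∀ c ∈ C, c ∈ Λ`;
* `hΛsmul_of_nodal`  : `∀ c ∈ C, ∀ f ∈ Λ, c * f ∈ Λ`;
* `hglue_of_nodal`   : `∀ f ∈ Λ, f ∈ W₁.nonunits → ∀ c ∈ C, c ∈ W₂ → f - c ∈ W₂.nonunits →
                        c ∈ W₂.nonunits`  (from `GlueConst.const_red_eq`);
* **`exists_asForm_of_nodal`** : `ASForm.exists_asForm` with these four discharged: the remaining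
  binders are the `K'`-rationality data (`Fr`, `C`, `ϖ`, `hunif_i`, `hpϖ_i`, `hroot_i`) and the two
  deep representations `g = a_i z_i d_i ^ p` (steps (b)(c)).
-/
import Fermat.Agent.GF.KCover.ASNode.GlueConst
import Fermat.Agent.GF.KCover.ASForm

set_option autoImplicit false
set_option linter.unusedSectionVars false

noncomputable section

open AlgebraicCurve

namespace Fermat.Agent.GF.KCover.ASNode

open Fermat.Agent.RRh45 Fermat.Agent.GJ.J1 Fermat.Agent.GK.MultiVal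
open Fermat.Agent.GK.NodalGraded
open Fermat.Agent.GS.Nodal.LSR2 Fermat.Agent.GS.Nodal.L5

variable {K F k Ft1 Ft2 : Type*} [Field K] [Field F] [Algebra K F] [Field k]
  [Field Ft1] [Algebra k Ft1] [Field Ft2] [Algebra k Ft2]
variable {R1 : RedData K F k Ft1} {R2 : RedData K F k Ft2} {hc : RedCompat R1 R2}
variable {ι : Type*} {P : ι → Place k Ft1} {Q : ι → Place k Ft2}
variable {C₀ : Divisor K F} {C₁ : Divisor k Ft1} {C₂ : Divisor k Ft2} {g₀ c₀ : ℤ} {n₀ : ℕ}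
variable [FiniteResidues K F] [HasPrincipalDivisors K F] [Nonempty (Place K F)]
variable [FiniteResidues k Ft1] [HasPrincipalDivisors k Ft1] [Nonempty (Place k Ft1)]
variable [FiniteResidues k Ft2] [HasPrincipalDivisors k Ft2] [Nonempty (Place k Ft2)]
variable [Infinite k] [Finite ι]

variable (C : Subfield F) (hCK : ∀ c ∈ C, ∃ a : K, algebraMap K F a = c)

include hCK in
/-- constants integral for the first valuation are integral for the second -/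
theorem hC12_of_nodal (hc : RedCompat R1 R2) : ∀ c ∈ C, c ∈ R1.Rw → c ∈ R2.Rw := by
  intro c hcC hc1
  obtain ⟨a, rfl⟩ := hCK c hcC
  have ha : a ∈ R1.A := (R1.mem_A_iff a).2 hc1
  exact (R2.mem_A_iff a).1 (hc.A_eq ▸ ha)

include hCK in
/-- the constants lie in `L(Z)`, `Z ≥ 0` -/
theorem hΛC_of_nodal {Z : Divisor K F} (hZ : 0 ≤ Z) :
    ∀ c ∈ C, c ∈ (riemannRochSpace Z).toAddSubgroup := by
  intro c hcC
  obtain ⟨a, rfl⟩ := hCK c hcC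
  exact const_mem_L hZ a

include hCK in
/-- `L(Z)` is stable under multiplication by constants -/
theorem hΛsmul_of_nodal (Z : Divisor K F) :
    ∀ c ∈ C, ∀ f ∈ (riemannRochSpace Z).toAddSubgroup,
      c * f ∈ (riemannRochSpace Z).toAddSubgroup := by
  intro c hcC f hf
  obtain ⟨a, rfl⟩ := hCK c hcC
  have := (riemannRochSpace Z).smul_mem a hf
  rwa [Algebra.smul_def] at this

include hCK in
/-- **`hglue` of `ASForm.exists_asForm`, VERBATIM**: an element of `L(Z)` (poles at good places)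
with `red₁ f = 0` and `red₂ f = c̄` for an integral constant `c` has `c̄ = 0`. -/
theorem hglue_of_nodal [Nonempty ι] (H : NodalHyp hc P Q C₀ C₁ C₂ g₀ c₀ n₀) {Z : Divisor K F}
    (hZ : 0 ≤ Z) (hgood : ∀ v ∈ Z.support, GoodPlace H v) :
    ∀ f ∈ (riemannRochSpace Z).toAddSubgroup, f ∈ R1.Rw.nonunits → ∀ c ∈ C, c ∈ R2.Rw →
      f - c ∈ R2.Rw.nonunits → c ∈ R2.Rw.nonunits := by
  intro f hfΛ hf1 c hcC hc2 hfc
  obtain ⟨a, rfl⟩ := hCK c hcC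
  have haA : a ∈ R2.A := (R2.mem_A_iff a).2 hc2
  -- `f ∈ Rw₁`, `red₁ f = 0`
  have hv1 : R1.Rw.valuation f < 1 := R1.Rw.mem_nonunits_iff.1 hf1
  have hfW1 : f ∈ R1.Rw := (R1.Rw.valuation_le_one_iff f).1 hv1.le
  have hr1 : R1.red ⟨f, hfW1⟩ = algebraMap k Ft1 0 := by
    rw [map_zero, R1.red_eq_zero_iff]
    exact (R1.Rw.valuation_lt_one_iff ⟨f, hfW1⟩).2 hv1
  -- `f ∈ Rw₂`, `red₂ f = res a`
  have hv2 : R2.Rw.valuation (f - algebraMap K F a) < 1 := R2.Rw.mem_nonunits_iff.1 hfc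
  have hsubW : f - algebraMap K F a ∈ R2.Rw := (R2.Rw.valuation_le_one_iff _).1 hv2.le
  have hfW2 : f ∈ R2.Rw := by
    have := R2.Rw.add_mem _ _ hsubW hc2
    rwa [sub_add_cancel] at this
  have hr2 : R2.red ⟨f, hfW2⟩ = algebraMap k Ft2 (R2.res ⟨a, haA⟩) := by
    have e : (⟨f, hfW2⟩ : R2.Rw) = ⟨f - algebraMap K F a, hsubW⟩ + ⟨algebraMap K F a, hc2⟩ :=
      Subtype.ext (by simp)
    have h0 : R2.red ⟨f - algebraMap K F a, hsubW⟩ = 0 := by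
      rw [R2.red_eq_zero_iff]
      exact (R2.Rw.valuation_lt_one_iff _).2 hv2
    rw [e, map_add, h0, zero_add]
    exact R2.red_algebraMap ⟨a, haA⟩
  have h0 : (0 : k) = R2.res ⟨a, haA⟩ := const_red_eq H hZ hgood hfW1 hfW2 hfΛ hr1 hr2
  -- hence `c` is in the maximal ideal of `Rw₂`
  have hred : R2.red ⟨algebraMap K F a, hc2⟩ = 0 := by
    have := R2.red_algebraMap ⟨a, haA⟩
    rw [← h0, map_zero] at this
    exact this
  rw [R2.red_eq_zero_iff] at hred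
  exact R2.Rw.mem_nonunits_iff.2 ((R2.Rw.valuation_lt_one_iff _).1 hred)

include hCK in
/-- **helper40's Artin–Schreier normal form on the nodal frame**: `ASForm.exists_asForm` with the
four frame hypotheses (`hC12`, `hΛC`, `hΛsmul`, `hglue`) discharged; `Λ = L(Z)`. -/
theorem exists_asForm_of_nodal [Nonempty ι] (H : NodalHyp hc P Q C₀ C₁ C₂ g₀ c₀ n₀)
    {Z : Divisor K F} (hZ : 0 ≤ Z) (hgood : ∀ v ∈ Z.support, GoodPlace H v)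
    {p : ℕ} (hp : p.Prime) (Fr : Subfield F) (hCFr : C ≤ Fr) {ϖ : F}
    (hϖC : ϖ ∈ C) (hϖ0 : ϖ ≠ 0) (hϖ₁ : ϖ ∈ R1.Rw.nonunits) (hϖ₂ : ϖ ∈ R2.Rw.nonunits)
    (hunif₁ : ∀ x ∈ Fr, x ∈ R1.Rw.nonunits → x / ϖ ∈ R1.Rw)
    (hunif₂ : ∀ x ∈ Fr, x ∈ R2.Rw.nonunits → x / ϖ ∈ R2.Rw)
    (hpϖ₁ : (p : F) / ϖ ^ (p - 1) ∈ R1.Rw) (hpϖ₂ : (p : F) / ϖ ^ (p - 1) ∈ R2.Rw)
    (hroot₁ : ∀ d ∈ Fr, d ∈ R1.Rw → ∀ a ∈ C, d ^ p - a ∈ R1.Rw.nonunits →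
      ∃ β ∈ C, d - β ∈ R1.Rw.nonunits)
    (hroot₂ : ∀ d ∈ Fr, d ∈ R2.Rw → ∀ a ∈ C, d ^ p - a ∈ R2.Rw.nonunits →
      ∃ β ∈ C, d - β ∈ R2.Rw.nonunits)
    {g : F} (hgΛ : g ∈ riemannRochSpace Z)
    {a₁ d₁ z₁ κ₁ : F} (hg₁ : g = a₁ * z₁ * d₁ ^ p) (ha₁ : a₁ ∈ C)
    (ha₁U : R1.Rw.valuation a₁ = 1) (hd₁ : d₁ ∈ Fr) (hd₁U : R1.Rw.valuation d₁ = 1)
    (hz₁ : (z₁ - 1) / ϖ ^ p ∈ R1.Rw) (hκ₁ : κ₁ ∈ C) (hgκ₁ : g - κ₁ ∈ R1.Rw.nonunits)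
    {a₂ d₂ z₂ κ₂ : F} (hg₂ : g = a₂ * z₂ * d₂ ^ p) (ha₂ : a₂ ∈ C)
    (ha₂U : R2.Rw.valuation a₂ = 1) (hd₂ : d₂ ∈ Fr) (hd₂U : R2.Rw.valuation d₂ = 1)
    (hz₂ : (z₂ - 1) / ϖ ^ p ∈ R2.Rw) (hκ₂ : κ₂ ∈ C) (hgκ₂ : g - κ₂ ∈ R2.Rw.nonunits) :
    ∃ A ∈ C, R1.Rw.valuation A = 1 ∧ R2.Rw.valuation A = 1 ∧
      ∃ g1 ∈ riemannRochSpace Z, g1 ∈ R1.Rw ∧ g1 ∈ R2.Rw ∧ g = A * (1 + ϖ ^ p * g1) :=
  Fermat.Agent.GF.KCover.ASForm.exists_asForm R1.Rw R2.Rw hp Fr C hCFr hϖC hϖ0 hϖ₁ hϖ₂ hunif₁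
    hunif₂ hpϖ₁ hpϖ₂ hroot₁ hroot₂
    (hC12_of_nodal C hCK hc) (riemannRochSpace Z).toAddSubgroup (hΛC_of_nodal C hCK hZ)
    (hΛsmul_of_nodal C hCK Z) (hglue_of_nodal C hCK H hZ hgood) hgΛ
    hg₁ ha₁ ha₁U hd₁ hd₁U hz₁ hκ₁ hgκ₁ hg₂ ha₂ ha₂U hd₂ hd₂U hz₂ hκ₂ hgκ₂

/-- the `g1` of the normal form has the same value at the two branches of every node -/
theorem glued_value_asForm [Nonempty ι] (H : NodalHyp hc P Q C₀ C₁ C₂ g₀ c₀ n₀)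
    {Z : Divisor K F} (hZ : 0 ≤ Z) (hgood : ∀ v ∈ Z.support, GoodPlace H v)
    {g1 : F} (hg1 : g1 ∈ riemannRochSpace Z) (h1 : g1 ∈ R1.Rw) (h2 : g1 ∈ R2.Rw) (j : ι) :
    ∃ c : k, ValueAt (P j) (R1.red ⟨g1, h1⟩) c ∧ ValueAt (Q j) (R2.red ⟨g1, h2⟩) c :=
  glued_value H hZ hgood h1 h2 hg1 j

end Fermat.Agent.GF.KCover.ASNode
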